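import Mathlib
import Fermat.Agent.S15.Velu.Algebra
import Fermat.Agent.S12.Velu.ModelQ

/-!
# PROJECT M, block [V] (S12), leaf (V2-model), (iii): the quotient isogeny for a general model

helper22's `ModelQ.exists_quotient` (version with `IsMulVelu`) gives the Vélu isogeny for a *short* curve over `ℚ`.  Here it is
conjugated by rational changes of variables:

* `pointCongr` : the point groups of two equal curves;
* `ratEquiv` : for curves `W₁' W₂'` over `ℚ` with `W₁'⁄ℚ̄ = (Vq.map _) • (W₂'⁄ℚ̄)`, `Vq` a change of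
  variables over `ℚ`: a `G_ℚ`-equivariant isomorphism of the groups of `ℚ̄`-points;
* `exists_quotient_of_model` : for ANY `W₀` over `ℚ` with `Δ ≠ 0`, `C` a Galois-stable subgroup of
  prime order `p` of `W₀(ℚ̄)`, and ANY `W₁'` over `ℚ` which over `ℚ̄` is a rational change of
  variables of Vélu's model `veluCurve (W₀⁄ℚ̄) C`: an equivariant surjection
  `φ : W₀(ℚ̄) → W₁'(ℚ̄)` with kernel `C` and an equivariant `ψ` with `ψ ∘ φ = [p]`.
-/

set_option autoImplicit false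
set_option linter.unusedSectionVars false
set_option linter.unusedVariables false

noncomputable section

namespace Fermat.Agent.S12.Level.Isog

open WeierstrassCurve WeierstrassCurve.Affine WeierstrassCurve.Affine.Point
open Fermat.Agent.S13.Local.NodalInst Fermat.Agent.S13.CU.VarChange
open Fermat.Agent.S15.Velu Fermat.Agent.S12.Velu

local notation "Kb" => AlgebraicClosure ℚ
local notation "GQ" => (AlgebraicClosure ℚ ≃ₐ[ℚ] AlgebraicClosure ℚ)

/-! ### equal curves -/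

section congr

variable {K : Type*} [Field K] [DecidableEq K]

/-- the identification of the point groups of two equal curves -/
def pointCongr {W₁ W₂ : WeierstrassCurve K} (h : W₁ = W₂) :
    W₁.toAffine.Point ≃+ W₂.toAffine.Point := by
  subst h
  exact AddEquiv.refl _

theorem ptX_pointCongr {W₁ W₂ : WeierstrassCurve K} (h : W₁ = W₂) (P : W₁.toAffine.Point) :
    ptX W₂ (pointCongr h P) = ptX W₁ P := by
  subst h; rfl

theorem ptY_pointCongr {W₁ W₂ : WeierstrassCurve K} (h : W₁ = W₂) (P : W₁.toAffine.Point) :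
    ptY W₂ (pointCongr h P) = ptY W₁ P := by
  subst h; rfl

theorem veluCurve_pointCongr {W₁ W₂ : WeierstrassCurve K} (h : W₁ = W₂)
    (S : Set W₂.toAffine.Point) : veluCurve W₁ ((pointCongr h) ⁻¹' S) = veluCurve W₂ S := by
  subst h; rfl

end congr

/-! ### rational changes of variables -/

section rat

variable {W₁' W₂' : Affine ℚ} (Vq : VariableChange ℚ)
  (h : W₁'⁄Kb = (Vq.map (algebraMap ℚ Kb)) • (W₂'⁄Kb))

/-- the isomorphism on `ℚ̄`-points induced by a change of variables defined over `ℚ` -/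
def ratEquiv : (W₁'⁄Kb).Point ≃+ (W₂'⁄Kb).Point :=
  (pointCongr h).trans (pointEquiv (W₂'⁄Kb) (Vq.map (algebraMap ℚ Kb)))

theorem ratEquiv_apply (P : (W₁'⁄Kb).Point) :
    ratEquiv Vq h P = pointEquiv (W₂'⁄Kb) (Vq.map (algebraMap ℚ Kb)) (pointCongr h P) := rfl

theorem ratEquiv_ne_zero {P : (W₁'⁄Kb).Point} (hP : P ≠ 0) : ratEquiv Vq h P ≠ 0 := fun h0 =>
  hP ((ratEquiv Vq h).map_eq_zero_iff.mp h0)

theorem ptX_ratEquiv {P : (W₁'⁄Kb).Point} (hP : P ≠ 0) :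
    ptX (W₂'⁄Kb) (ratEquiv Vq h P)
      = algebraMap ℚ Kb ((Vq.u : ℚ) ^ 2) * ptX (W₁'⁄Kb) P + algebraMap ℚ Kb Vq.r := by
  have hP' : pointCongr h P ≠ 0 := fun h0 => hP ((pointCongr h).map_eq_zero_iff.mp h0)
  rw [ratEquiv_apply, ptX_pointEquiv _ _ hP', ptX_pointCongr, map_pow]
  rfl

theorem ptY_ratEquiv {P : (W₁'⁄Kb).Point} (hP : P ≠ 0) :
    ptY (W₂'⁄Kb) (ratEquiv Vq h P)
      = algebraMap ℚ Kb ((Vq.u : ℚ) ^ 3) * ptY (W₁'⁄Kb) P
        + algebraMap ℚ Kb ((Vq.u : ℚ) ^ 2 * Vq.s) * ptX (W₁'⁄Kb) P + algebraMap ℚ Kb Vq.t := by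
  have hP' : pointCongr h P ≠ 0 := fun h0 => hP ((pointCongr h).map_eq_zero_iff.mp h0)
  rw [ratEquiv_apply, ptY_pointEquiv _ _ hP', ptX_pointCongr, ptY_pointCongr, map_pow, map_mul,
    map_pow]
  rfl

/-- **`ratEquiv` is Galois-equivariant.** -/
theorem ratEquiv_smul (σ : GQ) (P : (W₁'⁄Kb).Point) :
    ratEquiv Vq h (σ • P) = σ • ratEquiv Vq h P := by
  by_cases hP : P = 0
  · rw [hP, smul_zero_point, _root_.map_zero, smul_zero_point]
  · have h1 : σ • P ≠ 0 := smul_ne_zero_point σ hP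
    have h2 : ratEquiv Vq h P ≠ 0 := ratEquiv_ne_zero Vq h hP
    refine pt_ext (ratEquiv_ne_zero Vq h h1) (smul_ne_zero_point σ h2) ?_ ?_
    · rw [ptX_ratEquiv Vq h h1, ptX_smul, ptX_smul, ptX_ratEquiv Vq h hP]
      simp only [map_add, map_mul, AlgEquiv.commutes]
    · rw [ptY_ratEquiv Vq h h1, ptY_smul, ptX_smul, ptY_smul, ptY_ratEquiv Vq h hP]
      simp only [map_add, map_mul, AlgEquiv.commutes]

theorem ratEquiv_symm_smul (σ : GQ) (P : (W₂'⁄Kb).Point) :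
    (ratEquiv Vq h).symm (σ • P) = σ • (ratEquiv Vq h).symm P := by
  apply (ratEquiv Vq h).injective
  rw [AddEquiv.apply_symm_apply, ratEquiv_smul, AddEquiv.apply_symm_apply]

end rat

/-! ### the quotient for a general model -/

section quotient

open Fermat.Agent.S12.Velu.ModelQ

theorem map_mul_inv (Vq Vs : VariableChange ℚ) :
    (Vq.map (algebraMap ℚ Kb)) * (Vs.map (algebraMap ℚ Kb))⁻¹
      = (Vq * Vs⁻¹).map (algebraMap ℚ Kb) := by
  show VariableChange.mapHom (algebraMap ℚ Kb) Vq * (VariableChange.mapHom (algebraMap ℚ Kb) Vs)⁻¹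
    = VariableChange.mapHom (algebraMap ℚ Kb) (Vq * Vs⁻¹)
  rw [map_mul, map_inv]

/-- **(V2-model) (iii)**: the Vélu quotient isogeny on `ℚ̄`-points for a general Weierstrass model
over `ℚ`, with target any rational model `W₁'` of Vélu's curve. -/
theorem exists_quotient_of_model (W₀ : Affine ℚ) (hΔ : W₀.Δ ≠ 0)
    (C : AddSubgroup (W₀⁄Kb).Point) {p : ℕ} (hp : p.Prime) (hcard : Nat.card C = p)
    (hstab : ∀ σ : GQ, ∀ Q ∈ C, σ • Q ∈ C)
    (W₁' : Affine ℚ) (Vq : VariableChange ℚ)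
    (hW₁ : W₁'⁄Kb = (Vq.map (algebraMap ℚ Kb)) •
      veluCurve (W₀⁄Kb) (C : Set (W₀⁄Kb).Point)) :
    ∃ (φ : (W₀⁄Kb).Point →+ (W₁'⁄Kb).Point) (ψ : (W₁'⁄Kb).Point →+ (W₀⁄Kb).Point),
      W₁'.Δ ≠ 0 ∧ Function.Surjective φ ∧ (∀ P, φ P = 0 ↔ P ∈ C) ∧
      (∀ (σ : GQ) (P : (W₀⁄Kb).Point), φ (σ • P) = σ • φ P) ∧
      (∀ P : (W₀⁄Kb).Point, ψ (φ P) = p • P) ∧
      (∀ (σ : GQ) (P : (W₁'⁄Kb).Point), ψ (σ • P) = σ • ψ P) := by
  have hfinC : Finite C := Nat.finite_of_card_ne_zero (by rw [hcard]; exact hp.ne_zero)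
  have hfin : (C : Set (W₀⁄Kb).Point).Finite := Set.toFinite _
  -- the short model
  set Vs : VariableChange ℚ := W₀.toShortNF with hVs
  set Ws : Affine ℚ := Vs • W₀ with hWs
  have hshort : Ws.IsShortNF := W₀.toShortNF_spec
  have hΔs : Ws.Δ ≠ 0 := by
    rw [hWs, variableChange_Δ]
    exact mul_ne_zero (pow_ne_zero _ (Units.ne_zero _)) hΔ
  have h₀ : Ws⁄Kb = (Vs.map (algebraMap ℚ Kb)) • (W₀⁄Kb) :=
    (map_variableChange W₀ Vs (algebraMap ℚ Kb)).symm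
  set e₀ := ratEquiv Vs h₀ with he₀
  set Cs : AddSubgroup (Ws⁄Kb).Point := C.comap e₀.toAddMonoidHom with hCs
  have hmemCs : ∀ P, P ∈ Cs ↔ e₀ P ∈ C := fun P => Iff.rfl
  have hcards : Nat.card Cs = p := by
    rw [← hcard]
    refine Nat.card_congr ⟨fun P => ⟨e₀ P.1, P.2⟩, fun Q => ⟨e₀.symm Q.1, ?_⟩, ?_, ?_⟩
    · show e₀ (e₀.symm Q.1) ∈ C
      rw [AddEquiv.apply_symm_apply]; exact Q.2
    · intro P; exact Subtype.ext (AddEquiv.symm_apply_apply _ _)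
    · intro Q; exact Subtype.ext (AddEquiv.apply_symm_apply _ _)
  have hstabs : ∀ σ : GQ, ∀ Q ∈ Cs, σ • Q ∈ Cs := by
    intro σ Q hQ
    rw [hmemCs, he₀, ratEquiv_smul]
    exact hstab σ _ hQ
  obtain ⟨V', φs, ψs, hΔV, -, -, -, hV', hφs, -, hφs_eq, -, -⟩ :=
    @exists_quotient Ws hshort hΔs Cs p hp hcards hstabs
  -- Vélu's curve of the short model
  have hCs_set : (Cs : Set (Ws⁄Kb).Point)
      = (pointCongr h₀) ⁻¹' ((pointEquiv (W₀⁄Kb) (Vs.map (algebraMap ℚ Kb))) ⁻¹'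
          (C : Set (W₀⁄Kb).Point)) := by
    ext P; rfl
  have hV'' : V'⁄Kb = (Vs.map (algebraMap ℚ Kb)) • veluCurve (W₀⁄Kb) (C : Set (W₀⁄Kb).Point) := by
    calc V'⁄Kb = veluCurve (Ws⁄Kb) (Cs : Set (Ws⁄Kb).Point) := hV'
      _ = veluCurve (Ws⁄Kb) ((pointCongr h₀) ⁻¹'
            ((pointEquiv (W₀⁄Kb) (Vs.map (algebraMap ℚ Kb))) ⁻¹'
              (C : Set (W₀⁄Kb).Point))) := by rw [hCs_set]
      _ = veluCurve ((Vs.map (algebraMap ℚ Kb)) • (W₀⁄Kb))
            ((pointEquiv (W₀⁄Kb) (Vs.map (algebraMap ℚ Kb))) ⁻¹'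
              (C : Set (W₀⁄Kb).Point)) := veluCurve_pointCongr h₀ _
      _ = _ := veluCurve_variableChange _ _ _ hfin
  have h₁ : W₁'⁄Kb = ((Vq * Vs⁻¹).map (algebraMap ℚ Kb)) • (V'⁄Kb) := by
    rw [hW₁, hV'', ← mul_smul, ← map_mul_inv, mul_assoc, inv_mul_cancel, mul_one]
  set e₁ := ratEquiv (Vq * Vs⁻¹) h₁ with he₁
  -- the isogeny
  set φ : (W₀⁄Kb).Point →+ (W₁'⁄Kb).Point :=
    e₁.symm.toAddMonoidHom.comp (φs.comp e₀.symm.toAddMonoidHom) with hφ
  have hφ_apply : ∀ P, φ P = e₁.symm (φs (e₀.symm P)) := fun P => rfl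
  have hsurj : Function.Surjective φ := by
    intro R
    obtain ⟨S, hS⟩ := hφs.surj (e₁ R)
    refine ⟨e₀ S, ?_⟩
    rw [hφ_apply, AddEquiv.symm_apply_apply, hS, AddEquiv.symm_apply_apply]
  have hker : ∀ P, φ P = 0 ↔ P ∈ C := by
    intro P
    rw [hφ_apply, AddEquiv.map_eq_zero_iff, hφs.ker, hmemCs, AddEquiv.apply_symm_apply]
  have hequiv : ∀ (σ : GQ) (P : (W₀⁄Kb).Point), φ (σ • P) = σ • φ P := by
    intro σ P
    rw [hφ_apply, hφ_apply, he₀, ratEquiv_symm_smul, hφs_eq, he₁, ratEquiv_symm_smul]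
  have hkill : ∀ x, φ x = 0 → p • x = 0 := by
    intro x hx
    have hxC : x ∈ C := (hker x).mp hx
    have h1 : Nat.card C • (⟨x, hxC⟩ : C) = 0 := card_nsmul_eq_zero'
    rw [hcard] at h1
    exact congrArg Subtype.val h1
  obtain ⟨ψ, hψ⟩ := exists_dual φ hsurj p hkill
  refine ⟨φ, ψ, ?_, hsurj, hker, hequiv, hψ, fun σ P => dual_equivariant hsurj hψ hequiv σ P⟩
  -- the discriminant
  intro h0
  have h2 : (W₁'⁄Kb).Δ = 0 := by
    show (W₁'.map (algebraMap ℚ Kb)).Δ = 0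
    rw [WeierstrassCurve.map_Δ, h0, _root_.map_zero]
  rw [h₁, variableChange_Δ] at h2
  have h3 : (V'⁄Kb).Δ ≠ 0 := by
    show (V'.map (algebraMap ℚ Kb)).Δ ≠ 0
    rw [WeierstrassCurve.map_Δ]
    exact (map_ne_zero_iff _ (algebraMap ℚ Kb).injective).mpr hΔV
  exact h3 ((mul_eq_zero.mp h2).resolve_left (pow_ne_zero _ (Units.ne_zero _)))

end quotient

end Fermat.Agent.S12.Level.Isog
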