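import Mathlib
import Fermat.Agent.S15.Velu.Algebra
import Fermat.Agent.S13.Local.RationalCoords
import Fermat.Agent.S05.LocalVal
import Fermat.Agent.Lib.FrobeniusExists

/-!
# PROJECT M, block [V] (S12), leaf (V2-model), (M4): rationality of Vélu's model

`W' : Affine ℚ`, `C` a finite Galois-stable set of points of `W'(ℚ̄)`.  Then Vélu's sums `t`, `w`
are rational, and Vélu's model is the base change of a curve over `ℚ` (`veluCurve_rational`).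
If moreover `t`, `w` are integral at every place of `ℚ̄` not above `p`, they lie in `ℤ[1/p]`
(`exists_pow_mul_eq_intCast`).
-/

set_option autoImplicit false
set_option linter.unusedSectionVars false
set_option linter.unusedVariables false

noncomputable section

namespace Fermat.Agent.S12.Level.Rational

open WeierstrassCurve WeierstrassCurve.Affine WeierstrassCurve.Affine.Point
open Fermat.Agent.S13.Local.NodalInst Fermat.Agent.S15.Velu

local notation "Kb" => AlgebraicClosure ℚ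
local notation "GQ" => (AlgebraicClosure ℚ ≃ₐ[ℚ] AlgebraicClosure ℚ)

variable {W' : Affine ℚ}

/-! ### Galois permutes the non-zero points of a stable set -/

theorem bijOn_smul (C : Set (W'⁄Kb).Point) (hstab : ∀ σ : GQ, ∀ P ∈ C, σ • P ∈ C) (σ : GQ) :
    Set.BijOn (fun P : (W'⁄Kb).Point => σ • P) (C \ {0}) (C \ {0}) := by
  refine ⟨?_, ?_, ?_⟩
  · rintro P ⟨hP, hP0⟩
    exact ⟨hstab σ P hP, smul_ne_zero_point σ hP0⟩
  · intro P _ Q _ h
    have h' : σ • P = σ • Q := h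
    have := congrArg (fun R => σ⁻¹ • R) h'
    simpa [inv_smul_smul] using this
  · rintro Q ⟨hQ, hQ0⟩
    refine ⟨σ⁻¹ • Q, ⟨hstab σ⁻¹ Q hQ, smul_ne_zero_point σ⁻¹ hQ0⟩, ?_⟩
    exact smul_inv_smul σ Q

/-- a sum of a function of the `x`-coordinates over a Galois-stable set is unchanged when the
`x`-coordinates are moved by `σ`. -/
theorem finsum_map (C : Set (W'⁄Kb).Point) (hstab : ∀ σ : GQ, ∀ P ∈ C, σ • P ∈ C) (σ : GQ)
    (f : Kb → Kb) :
    ∑ᶠ P ∈ C \ {0}, f (σ (ptX (W'⁄Kb) P)) = ∑ᶠ P ∈ C \ {0}, f (ptX (W'⁄Kb) P) := by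
  rw [← finsum_mem_eq_of_bijOn (fun P : (W'⁄Kb).Point => σ • P) (bijOn_smul C hstab σ)
    (f := fun P => f (σ (ptX (W'⁄Kb) P))) (g := fun Q => f (ptX (W'⁄Kb) Q))]
  intro P _
  show f (σ (ptX (W'⁄Kb) P)) = f (ptX (W'⁄Kb) (σ • P))
  rw [ptX_smul]

/-! ### the coefficients are rational -/

theorem b₂_eq : (W'⁄Kb).b₂ = algebraMap ℚ Kb W'.b₂ := by
  show (W'.map (algebraMap ℚ Kb)).b₂ = _
  rw [WeierstrassCurve.map_b₂]

theorem b₄_eq : (W'⁄Kb).b₄ = algebraMap ℚ Kb W'.b₄ := by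
  show (W'.map (algebraMap ℚ Kb)).b₄ = _
  rw [WeierstrassCurve.map_b₄]

theorem b₆_eq : (W'⁄Kb).b₆ = algebraMap ℚ Kb W'.b₆ := by
  show (W'.map (algebraMap ℚ Kb)).b₆ = _
  rw [WeierstrassCurve.map_b₆]

theorem map_tTerm (σ : GQ) (x : Kb) : σ (tTerm (W'⁄Kb) x) = tTerm (W'⁄Kb) (σ x) := by
  unfold tTerm
  rw [b₂_eq, b₄_eq]
  simp only [map_add, map_mul, map_pow, map_ofNat, AlgEquiv.commutes]

theorem map_wTerm (σ : GQ) (x : Kb) : σ (wTerm (W'⁄Kb) x) = wTerm (W'⁄Kb) (σ x) := by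
  unfold wTerm
  rw [b₂_eq, b₄_eq, b₆_eq]
  simp only [map_add, map_mul, map_pow, map_ofNat, AlgEquiv.commutes]

theorem map_veluT (C : Set (W'⁄Kb).Point) (hC : C.Finite)
    (hstab : ∀ σ : GQ, ∀ P ∈ C, σ • P ∈ C) (σ : GQ) :
    σ (veluT (W'⁄Kb) C) = veluT (W'⁄Kb) C := by
  unfold veluT
  have hfin : (C \ {0}).Finite := hC.sdiff
  rw [map_div₀, map_ofNat]
  congr 1
  have h1 : σ (∑ᶠ P ∈ C \ {0}, tTerm (W'⁄Kb) (ptX (W'⁄Kb) P))
      = ∑ᶠ P ∈ C \ {0}, σ (tTerm (W'⁄Kb) (ptX (W'⁄Kb) P)) :=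
    (σ : Kb →+* Kb).toAddMonoidHom.map_finsum_mem _ hfin
  rw [h1]
  have h2 : ∑ᶠ P ∈ C \ {0}, σ (tTerm (W'⁄Kb) (ptX (W'⁄Kb) P))
      = ∑ᶠ P ∈ C \ {0}, tTerm (W'⁄Kb) (σ (ptX (W'⁄Kb) P)) :=
    finsum_mem_congr rfl fun P _ => map_tTerm σ _
  rw [h2]
  exact finsum_map C hstab σ (tTerm (W'⁄Kb))

theorem map_veluW (C : Set (W'⁄Kb).Point) (hC : C.Finite)
    (hstab : ∀ σ : GQ, ∀ P ∈ C, σ • P ∈ C) (σ : GQ) :
    σ (veluW (W'⁄Kb) C) = veluW (W'⁄Kb) C := by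
  unfold veluW
  have hfin : (C \ {0}).Finite := hC.sdiff
  rw [map_div₀, map_ofNat]
  congr 1
  have h1 : σ (∑ᶠ P ∈ C \ {0}, wTerm (W'⁄Kb) (ptX (W'⁄Kb) P))
      = ∑ᶠ P ∈ C \ {0}, σ (wTerm (W'⁄Kb) (ptX (W'⁄Kb) P)) :=
    (σ : Kb →+* Kb).toAddMonoidHom.map_finsum_mem _ hfin
  rw [h1]
  have h2 : ∑ᶠ P ∈ C \ {0}, σ (wTerm (W'⁄Kb) (ptX (W'⁄Kb) P))
      = ∑ᶠ P ∈ C \ {0}, wTerm (W'⁄Kb) (σ (ptX (W'⁄Kb) P)) :=
    finsum_mem_congr rfl fun P _ => map_wTerm σ _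
  rw [h2]
  exact finsum_map C hstab σ (wTerm (W'⁄Kb))

/-- **Vélu's `t` is rational.** -/
theorem exists_rat_veluT (C : Set (W'⁄Kb).Point) (hC : C.Finite)
    (hstab : ∀ σ : GQ, ∀ P ∈ C, σ • P ∈ C) :
    ∃ t : ℚ, algebraMap ℚ Kb t = veluT (W'⁄Kb) C :=
  Fermat.Agent.S13.Local.RationalCoords.exists_rat_of_fixed (map_veluT C hC hstab)

/-- **Vélu's `w` is rational.** -/
theorem exists_rat_veluW (C : Set (W'⁄Kb).Point) (hC : C.Finite)
    (hstab : ∀ σ : GQ, ∀ P ∈ C, σ • P ∈ C) :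
    ∃ w : ℚ, algebraMap ℚ Kb w = veluW (W'⁄Kb) C :=
  Fermat.Agent.S13.Local.RationalCoords.exists_rat_of_fixed (map_veluW C hC hstab)

/-- **Vélu's model is defined over `ℚ`.** -/
theorem veluCurve_rational (C : Set (W'⁄Kb).Point) (hC : C.Finite)
    (hstab : ∀ σ : GQ, ∀ P ∈ C, σ • P ∈ C) :
    ∃ t w : ℚ, algebraMap ℚ Kb t = veluT (W'⁄Kb) C ∧ algebraMap ℚ Kb w = veluW (W'⁄Kb) C ∧
      veluCurve (W'⁄Kb) C
        = (⟨W'.a₁, W'.a₂, W'.a₃, W'.a₄ - 5 * t, W'.a₆ - W'.b₂ * t - 7 * w⟩ : Affine ℚ)⁄Kb := by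
  obtain ⟨t, ht⟩ := exists_rat_veluT C hC hstab
  obtain ⟨w, hw⟩ := exists_rat_veluW C hC hstab
  refine ⟨t, w, ht, hw, ?_⟩
  unfold veluCurve
  rw [← ht, ← hw, b₂_eq]
  show _ = WeierstrassCurve.map _ (algebraMap ℚ Kb)
  ext <;> simp [WeierstrassCurve.map, WeierstrassCurve.Affine.baseChange,
    WeierstrassCurve.baseChange]

/-! ### integral away from `p` implies `ℤ[1/p]` -/

/-- A rational number which is integral at every place of `ℚ̄` not above `p` has a power of `p`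
as denominator. -/
theorem exists_pow_mul_eq_intCast {p : ℕ} (hp : p.Prime) (q : ℚ)
    (hq : ∀ ℓ : ℕ, ℓ.Prime → ℓ ≠ p → ∀ A : ValuationSubring Kb, A.LiesOverPrime ℓ →
      A.valuation (algebraMap ℚ Kb q) ≤ 1) :
    ∃ (k : ℕ) (n : ℤ), q * (p : ℚ) ^ k = n := by
  -- every prime factor of the denominator is `p`
  have hprime : ∀ ℓ : ℕ, ℓ.Prime → ℓ ∣ q.den → ℓ = p := by
    intro ℓ hℓ hd
    by_contra hne
    obtain ⟨A, hA⟩ :=
      Fermat.Agent.Lib.FrobeniusExists.exists_valuationSubring_liesOverPrime (L := Kb) ℓ hℓ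
    have hqA := hq ℓ hℓ hne A hA
    have hdv : A.valuation (((q.den : ℤ) : ℤ) : Kb) < 1 :=
      Fermat.Agent.S05.LocalVal.intCast_valuation_lt_one hℓ hA
        (Int.natCast_dvd_natCast.mpr hd)
    have hnum : ((q.num : ℤ) : Kb) = algebraMap ℚ Kb q * (((q.den : ℤ) : ℤ) : Kb) := by
      have h1 : q * (q.den : ℚ) = (q.num : ℚ) := Rat.mul_den_eq_num q
      have h2 : algebraMap ℚ Kb q * algebraMap ℚ Kb (q.den : ℚ) = algebraMap ℚ Kb (q.num : ℚ) := by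
        rw [← map_mul, h1]
      rw [map_natCast, map_intCast] at h2
      rw [Int.cast_natCast]
      exact h2.symm
    have hnv : A.valuation ((q.num : ℤ) : Kb) < 1 := by
      rw [hnum, map_mul]
      calc A.valuation (algebraMap ℚ Kb q) * A.valuation (((q.den : ℤ) : ℤ) : Kb)
          ≤ 1 * A.valuation (((q.den : ℤ) : ℤ) : Kb) := mul_le_mul_left hqA _
        _ = A.valuation (((q.den : ℤ) : ℤ) : Kb) := one_mul _
        _ < 1 := hdv
    have hdn : (ℓ : ℤ) ∣ q.num := by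
      by_contra hnd
      have := Fermat.Agent.S05.LocalVal.intCast_valuation_eq_one (L := Kb) hℓ hA hnd
      rw [this] at hnv
      exact lt_irrefl _ hnv
    have hcop : Nat.gcd q.num.natAbs q.den = 1 := q.reduced
    have h1 : ℓ ∣ q.num.natAbs := Int.natCast_dvd.mp hdn
    have h3 := Nat.dvd_gcd h1 hd
    rw [hcop] at h3
    exact hℓ.one_lt.ne' (Nat.dvd_one.mp h3)
  have hden : q.den = p ^ q.den.primeFactorsList.length :=
    Nat.eq_prime_pow_of_unique_prime_dvd q.den_ne_zero (fun {d} hd hdd => hprime d hd hdd)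
  refine ⟨q.den.primeFactorsList.length, q.num, ?_⟩
  have h1 : q * (q.den : ℚ) = (q.num : ℚ) := Rat.mul_den_eq_num q
  rw [← h1]
  congr 1
  exact_mod_cast hden.symm

end Fermat.Agent.S12.Level.Rational
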