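import Mathlib
import Fermat.Agent.S12.Level.Rational
import Fermat.Agent.S58.Mult.Unipotent

/-!
# PROJECT M, block [V] (S12), leaf (V2-model), (M5): the scaled `ℤ`-model of Vélu's curve

`W : WeierstrassCurve ℤ`, `E = (EQ W)⁄ℚ̄`, `C` a finite Galois-stable set of points whose Vélu sums
`t`, `w` are integral at every place not above `p`.  Then for `c = p ^ k`, `k` large,

  `scaledModel W c (c t) (c w) : WeierstrassCurve ℤ`

base-changes to `scaleVC c • veluCurve E C` (`u = c⁻¹`): the next level of the tower is again a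
`ℤ`-model, and at every prime `ℓ ≠ p` its `Δ`, `c₄` have the valuations of Vélu's `Δ'`, `c₄'`.
The model is (deliberately) not minimal at `p`: S15 never looks at `p`.
-/

set_option autoImplicit false
set_option linter.unusedSectionVars false
set_option linter.unusedVariables false

noncomputable section

namespace Fermat.Agent.S12.Level.Scale

open WeierstrassCurve WeierstrassCurve.Affine
open Fermat.Agent.S13.Local.NodalInst Fermat.Agent.S15.Velu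
open Fermat.Agent.S58.Mult.Unipotent (EQ a₁_eq a₂_eq a₃_eq a₄_eq a₆_eq Δ_eq c₄_eq)

local notation "Kb" => AlgebraicClosure ℚ
local notation "GQ" => (AlgebraicClosure ℚ ≃ₐ[ℚ] AlgebraicClosure ℚ)

/-- the scaling `u = c⁻¹` -/
def scaleVC (c : Kb) (hc : c ≠ 0) : VariableChange Kb := ⟨(Units.mk0 c hc)⁻¹, 0, 0, 0⟩

section scale

variable (c : Kb) (hc : c ≠ 0) (V : WeierstrassCurve Kb)

theorem scaleVC_uinv : (((scaleVC c hc).u⁻¹ : Kbˣ) : Kb) = c := by simp [scaleVC]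

theorem scale_a₁ : (scaleVC c hc • V).a₁ = c * V.a₁ := by
  rw [variableChange_a₁, scaleVC_uinv]; simp [scaleVC]
theorem scale_a₂ : (scaleVC c hc • V).a₂ = c ^ 2 * V.a₂ := by
  rw [variableChange_a₂, scaleVC_uinv]; simp [scaleVC]
theorem scale_a₃ : (scaleVC c hc • V).a₃ = c ^ 3 * V.a₃ := by
  rw [variableChange_a₃, scaleVC_uinv]; simp [scaleVC]
theorem scale_a₄ : (scaleVC c hc • V).a₄ = c ^ 4 * V.a₄ := by
  rw [variableChange_a₄, scaleVC_uinv]; simp [scaleVC]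
theorem scale_a₆ : (scaleVC c hc • V).a₆ = c ^ 6 * V.a₆ := by
  rw [variableChange_a₆, scaleVC_uinv]; simp [scaleVC]
theorem scale_c₄ : (scaleVC c hc • V).c₄ = c ^ 4 * V.c₄ := by
  rw [variableChange_c₄, scaleVC_uinv]
theorem scale_Δ : (scaleVC c hc • V).Δ = c ^ 12 * V.Δ := by
  rw [variableChange_Δ, scaleVC_uinv]

end scale

/-- the `ℤ`-model of the scaled Vélu curve; `nt = c t`, `nw = c w` -/
def scaledModel (W : WeierstrassCurve ℤ) (c nt nw : ℤ) : WeierstrassCurve ℤ :=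
  ⟨c * W.a₁, c ^ 2 * W.a₂, c ^ 3 * W.a₃, c ^ 4 * W.a₄ - 5 * c ^ 3 * nt,
    c ^ 6 * W.a₆ - c ^ 5 * W.b₂ * nt - 7 * c ^ 5 * nw⟩

variable (W : WeierstrassCurve ℤ)

theorem b₂_eq : ((EQ W)⁄Kb).b₂ = ((W.b₂ : ℤ) : Kb) := by
  show ((W.map (Int.castRingHom ℚ)).map (algebraMap ℚ Kb)).b₂ = _
  rw [WeierstrassCurve.map_b₂, WeierstrassCurve.map_b₂]
  simp

/-- **the scaled model base-changes to the scaled Vélu curve** -/
theorem scaledModel_eq (C : Set ((EQ W)⁄Kb).Point) {c nt nw : ℤ} (hc : ((c : ℤ) : Kb) ≠ 0)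
    (hnt : ((c : ℤ) : Kb) * veluT ((EQ W)⁄Kb) C = ((nt : ℤ) : Kb))
    (hnw : ((c : ℤ) : Kb) * veluW ((EQ W)⁄Kb) C = ((nw : ℤ) : Kb)) :
    (EQ (scaledModel W c nt nw))⁄Kb = scaleVC ((c : ℤ) : Kb) hc • veluCurve ((EQ W)⁄Kb) C := by
  ext
  · rw [a₁_eq, scale_a₁, veluCurve_a₁, a₁_eq]; simp [scaledModel]
  · rw [a₂_eq, scale_a₂, veluCurve_a₂, a₂_eq]; simp [scaledModel]
  · rw [a₃_eq, scale_a₃, veluCurve_a₃, a₃_eq]; simp [scaledModel]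
  · rw [a₄_eq, scale_a₄, veluCurve_a₄, a₄_eq]
    simp only [scaledModel]
    push_cast
    linear_combination (5 * ((c : ℤ) : Kb) ^ 3) * hnt
  · rw [a₆_eq, scale_a₆, veluCurve_a₆, a₆_eq, b₂_eq]
    simp only [scaledModel]
    push_cast
    linear_combination (((c : ℤ) : Kb) ^ 5 * ((W.b₂ : ℤ) : Kb)) * hnt
      + (7 * ((c : ℤ) : Kb) ^ 5) * hnw

/-- **Existence of the next `ℤ`-model**: if Vélu's `t`, `w` of a finite Galois-stable set are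
integral at all places not above `p`, a `p`-power scaling of Vélu's curve is defined over `ℤ`. -/
theorem exists_scaledModel {p : ℕ} (hp : p.Prime) (C : Set ((EQ W)⁄Kb).Point) (hC : C.Finite)
    (hstab : ∀ σ : GQ, ∀ P ∈ C, σ • P ∈ C)
    (hint : ∀ ℓ : ℕ, ℓ.Prime → ℓ ≠ p → ∀ A : ValuationSubring Kb, A.LiesOverPrime ℓ →
      A.valuation (veluT ((EQ W)⁄Kb) C) ≤ 1 ∧ A.valuation (veluW ((EQ W)⁄Kb) C) ≤ 1) :
    ∃ (k : ℕ) (W₁ : WeierstrassCurve ℤ) (hc : (((p : ℤ) ^ k : ℤ) : Kb) ≠ 0),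
      (EQ W₁)⁄Kb = scaleVC ((((p : ℤ) ^ k : ℤ)) : Kb) hc • veluCurve ((EQ W)⁄Kb) C := by
  obtain ⟨t, ht⟩ := Rational.exists_rat_veluT (W' := EQ W) C hC hstab
  obtain ⟨w, hw⟩ := Rational.exists_rat_veluW (W' := EQ W) C hC hstab
  obtain ⟨k₁, n₁, h₁⟩ := Rational.exists_pow_mul_eq_intCast hp t (fun ℓ hℓ hne A hA => by
    rw [ht]; exact (hint ℓ hℓ hne A hA).1)
  obtain ⟨k₂, n₂, h₂⟩ := Rational.exists_pow_mul_eq_intCast hp w (fun ℓ hℓ hne A hA => by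
    rw [hw]; exact (hint ℓ hℓ hne A hA).2)
  have hp0 : ((p : ℤ) : Kb) ≠ 0 := by
    have : (p : ℤ) ≠ 0 := by exact_mod_cast hp.ne_zero
    exact_mod_cast this
  have hc : (((p : ℤ) ^ (k₁ + k₂) : ℤ) : Kb) ≠ 0 := by
    push_cast
    exact pow_ne_zero _ (by exact_mod_cast hp.ne_zero)
  refine ⟨k₁ + k₂, scaledModel W ((p : ℤ) ^ (k₁ + k₂)) (n₁ * (p : ℤ) ^ k₂) (n₂ * (p : ℤ) ^ k₁),
    hc, scaledModel_eq W C hc ?_ ?_⟩
  · rw [← ht]
    have e : ((p : ℚ) ^ (k₁ + k₂)) * t = ((n₁ * (p : ℤ) ^ k₂ : ℤ) : ℚ) := by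
      push_cast
      rw [← h₁]; ring
    have := congrArg (algebraMap ℚ Kb) e
    simpa [map_mul, map_pow] using this
  · rw [← hw]
    have e : ((p : ℚ) ^ (k₁ + k₂)) * w = ((n₂ * (p : ℤ) ^ k₁ : ℤ) : ℚ) := by
      push_cast
      rw [← h₂]; ring
    have := congrArg (algebraMap ℚ Kb) e
    simpa [map_mul, map_pow] using this

/-! ### the valuations of `Δ`, `c₄` of the scaled model away from `p` -/

section away

variable {W} {W₁ : WeierstrassCurve ℤ} {V : WeierstrassCurve Kb} {p k : ℕ}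
  {hc : (((p : ℤ) ^ k : ℤ) : Kb) ≠ 0}

theorem val_pow_eq_one (hp : p.Prime) {ℓ : ℕ} (hℓ : ℓ.Prime) (hne : ℓ ≠ p)
    {A : ValuationSubring Kb} (hA : A.LiesOverPrime ℓ) (n : ℕ) :
    A.valuation ((((p : ℤ) ^ k : ℤ) : Kb) ^ n) = 1 := by
  have h1 : A.valuation ((p : ℕ) : Kb) = 1 :=
    Fermat.Agent.S05.LocalVal.natCast_prime_valuation_eq_one hℓ hA hp (Ne.symm hne)
  push_cast
  rw [map_pow, map_pow, h1, one_pow, one_pow]

theorem val_Δ_scaled (h : (EQ W₁)⁄Kb = scaleVC ((((p : ℤ) ^ k : ℤ)) : Kb) hc • V)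
    (hp : p.Prime) {ℓ : ℕ} (hℓ : ℓ.Prime) (hne : ℓ ≠ p)
    {A : ValuationSubring Kb} (hA : A.LiesOverPrime ℓ) :
    A.valuation ((W₁.Δ : ℤ) : Kb) = A.valuation V.Δ := by
  rw [← Δ_eq, h, scale_Δ, map_mul, val_pow_eq_one hp hℓ hne hA, one_mul]

theorem val_c₄_scaled (h : (EQ W₁)⁄Kb = scaleVC ((((p : ℤ) ^ k : ℤ)) : Kb) hc • V)
    (hp : p.Prime) {ℓ : ℕ} (hℓ : ℓ.Prime) (hne : ℓ ≠ p)
    {A : ValuationSubring Kb} (hA : A.LiesOverPrime ℓ) :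
    A.valuation ((W₁.c₄ : ℤ) : Kb) = A.valuation V.c₄ := by
  rw [← c₄_eq, h, scale_c₄, map_mul, val_pow_eq_one hp hℓ hne hA, one_mul]

/-- `ℓ ∣ Δ(W₁)` iff Vélu's discriminant is a non-unit at (any) `A` over `ℓ ≠ p`. -/
theorem dvd_Δ_iff (h : (EQ W₁)⁄Kb = scaleVC ((((p : ℤ) ^ k : ℤ)) : Kb) hc • V)
    (hp : p.Prime) {ℓ : ℕ} (hℓ : ℓ.Prime) (hne : ℓ ≠ p)
    {A : ValuationSubring Kb} (hA : A.LiesOverPrime ℓ) :
    (ℓ : ℤ) ∣ W₁.Δ ↔ A.valuation V.Δ < 1 := by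
  rw [← val_Δ_scaled h hp hℓ hne hA, ← A.mem_nonunits_iff,
    Fermat.Agent.S05.LocalVal.intCast_mem_nonunits_iff hℓ hA]

/-- `ℓ ∣ c₄(W₁)` iff Vélu's `c₄` is a non-unit at (any) `A` over `ℓ ≠ p`. -/
theorem dvd_c₄_iff (h : (EQ W₁)⁄Kb = scaleVC ((((p : ℤ) ^ k : ℤ)) : Kb) hc • V)
    (hp : p.Prime) {ℓ : ℕ} (hℓ : ℓ.Prime) (hne : ℓ ≠ p)
    {A : ValuationSubring Kb} (hA : A.LiesOverPrime ℓ) :
    (ℓ : ℤ) ∣ W₁.c₄ ↔ A.valuation V.c₄ < 1 := by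
  rw [← val_c₄_scaled h hp hℓ hne hA, ← A.mem_nonunits_iff,
    Fermat.Agent.S05.LocalVal.intCast_mem_nonunits_iff hℓ hA]

theorem Δ_ne_zero_of_scaled (h : (EQ W₁)⁄Kb = scaleVC ((((p : ℤ) ^ k : ℤ)) : Kb) hc • V)
    (hV : V.Δ ≠ 0) : W₁.Δ ≠ 0 := by
  intro h0
  have h1 : ((EQ W₁)⁄Kb).Δ = 0 := by rw [Δ_eq, h0]; simp
  rw [h, scale_Δ] at h1
  exact hV ((mul_eq_zero.mp h1).resolve_left (pow_ne_zero _ hc))

end away

end Fermat.Agent.S12.Level.Scale
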