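import Mathlib
import Fermat.Agent.S12.Level.Scale
import Fermat.Agent.S12.Level.Isog
import Fermat.Agent.Lib.FrobeniusExists

/-!
# PROJECT M, block [V] (S12), leaf (V2-model), (iv): the next level from the local package

`W : WeierstrassCurve ℤ`, `E = (EQ W)⁄ℚ̄`, `C ≤ E(ℚ̄)` Galois-stable of prime order `p`.

* `LocalOK W p C` : at every place `A` over a prime `ℓ ≠ p`, Vélu's sums `t`, `w` of `C` are
  `A`-integral, Vélu's discriminant is a non-unit at `A` exactly when `ℓ ∣ Δ(W)`, and then Vélu's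
  `c₄` is a unit at `A`.
* `exists_next_level_of_local` : under `LocalOK`, there is a `ℤ`-model `W₁` (a `p`-power scaling of
  Vélu's curve) with the same primes `ℓ ≠ p` of bad reduction, multiplicative there, and a
  Galois-equivariant surjection `φ : E(ℚ̄) → E₁(ℚ̄)` with kernel `C`, and `ψ` with `ψ ∘ φ = [p]`.
-/

set_option autoImplicit false
set_option linter.unusedSectionVars false
set_option linter.unusedVariables false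

noncomputable section

namespace Fermat.Agent.S12.Level.Next

open WeierstrassCurve WeierstrassCurve.Affine
open Fermat.Agent.S13.Local.NodalInst Fermat.Agent.S15.Velu
open Fermat.Agent.S58.Mult.Unipotent (EQ a₁_eq a₂_eq a₃_eq a₄_eq a₆_eq Δ_eq c₄_eq)
open Fermat.Agent.S12.Level.Scale Fermat.Agent.S12.Level.Isog

local notation "Kb" => AlgebraicClosure ℚ
local notation "GQ" => (AlgebraicClosure ℚ ≃ₐ[ℚ] AlgebraicClosure ℚ)

/-- the local package of the level step at the places not above `p` -/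
def LocalOK (W : WeierstrassCurve ℤ) (p : ℕ) (C : Set ((EQ W)⁄Kb).Point) : Prop :=
  ∀ ℓ : ℕ, ℓ.Prime → ℓ ≠ p → ∀ A : ValuationSubring Kb, A.LiesOverPrime ℓ →
    A.valuation (veluT ((EQ W)⁄Kb) C) ≤ 1 ∧ A.valuation (veluW ((EQ W)⁄Kb) C) ≤ 1 ∧
    (A.valuation (veluCurve ((EQ W)⁄Kb) C).Δ < 1 ↔ (ℓ : ℤ) ∣ W.Δ) ∧
    (A.valuation (veluCurve ((EQ W)⁄Kb) C).Δ < 1 →
      A.valuation (veluCurve ((EQ W)⁄Kb) C).c₄ = 1)

/-- the rational scaling `u = (p ^ k)⁻¹` -/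
def scaleQ (p k : ℕ) (hp : p.Prime) : VariableChange ℚ :=
  ⟨(Units.mk0 ((p : ℚ) ^ k) (pow_ne_zero _ (by exact_mod_cast hp.ne_zero)))⁻¹, 0, 0, 0⟩

theorem scaleQ_map (p k : ℕ) (hp : p.Prime) (hc : (((p : ℤ) ^ k : ℤ) : Kb) ≠ 0) :
    (scaleQ p k hp).map (algebraMap ℚ Kb) = scaleVC (((p : ℤ) ^ k : ℤ) : Kb) hc := by
  ext
  · show ((Units.map (algebraMap ℚ Kb : ℚ →* Kb)
      (Units.mk0 ((p : ℚ) ^ k) (pow_ne_zero _ (by exact_mod_cast hp.ne_zero)))⁻¹ : Kbˣ) : Kb)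
      = (((Units.mk0 ((((p : ℤ) ^ k : ℤ)) : Kb) hc)⁻¹ : Kbˣ) : Kb)
    rw [Units.coe_map, Units.val_inv_eq_inv_val, Units.val_inv_eq_inv_val, Units.val_mk0,
      Units.val_mk0]
    simp
  · show algebraMap ℚ Kb 0 = 0
    exact map_zero _
  · show algebraMap ℚ Kb 0 = 0
    exact map_zero _
  · show algebraMap ℚ Kb 0 = 0
    exact map_zero _

/-- **(V2-model) (iv): the next level from the local package.** -/
theorem exists_next_level_of_local (W : WeierstrassCurve ℤ) (hΔ : W.Δ ≠ 0)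
    {p : ℕ} (hp : p.Prime)
    (C : AddSubgroup ((EQ W)⁄Kb).Point) (hcard : Nat.card C = p)
    (hstab : ∀ σ : GQ, ∀ Q ∈ C, σ • Q ∈ C)
    (hloc : LocalOK W p (C : Set ((EQ W)⁄Kb).Point)) :
    ∃ (W₁ : WeierstrassCurve ℤ) (φ : ((EQ W)⁄Kb).Point →+ ((EQ W₁)⁄Kb).Point)
      (ψ : ((EQ W₁)⁄Kb).Point →+ ((EQ W)⁄Kb).Point),
      W₁.Δ ≠ 0 ∧
      (∀ ℓ : ℕ, ℓ.Prime → ℓ ≠ p → ((ℓ : ℤ) ∣ W₁.Δ ↔ (ℓ : ℤ) ∣ W.Δ)) ∧
      (∀ ℓ : ℕ, ℓ.Prime → ℓ ≠ p → (ℓ : ℤ) ∣ W₁.Δ → ¬ (ℓ : ℤ) ∣ W₁.c₄) ∧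
      Function.Surjective φ ∧ (∀ P, φ P = 0 ↔ P ∈ C) ∧
      (∀ (σ : GQ) (P : ((EQ W)⁄Kb).Point), φ (σ • P) = σ • φ P) ∧
      (∀ P : ((EQ W)⁄Kb).Point, ψ (φ P) = p • P) ∧
      (∀ (σ : GQ) (P : ((EQ W₁)⁄Kb).Point), ψ (σ • P) = σ • ψ P) := by
  have hfinC : Finite C := Nat.finite_of_card_ne_zero (by rw [hcard]; exact hp.ne_zero)
  have hfin : (C : Set ((EQ W)⁄Kb).Point).Finite := Set.toFinite _
  obtain ⟨k, W₁, hc, hW₁⟩ := exists_scaledModel W hp (C : Set ((EQ W)⁄Kb).Point) hfin hstab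
    (fun ℓ hℓ hne A hA => ⟨(hloc ℓ hℓ hne A hA).1, (hloc ℓ hℓ hne A hA).2.1⟩)
  have hΔQ : (EQ W).Δ ≠ 0 := by
    show (W.map (Int.castRingHom ℚ)).Δ ≠ 0
    rw [WeierstrassCurve.map_Δ]
    simpa using hΔ
  have hW₁' : (EQ W₁)⁄Kb = ((scaleQ p k hp).map (algebraMap ℚ Kb)) •
      veluCurve ((EQ W)⁄Kb) (C : Set ((EQ W)⁄Kb).Point) := by
    rw [scaleQ_map p k hp hc]; exact hW₁
  obtain ⟨φ, ψ, hΔ₁, hsurj, hker, heq, hψ, hψeq⟩ :=
    exists_quotient_of_model (EQ W) hΔQ C hp hcard hstab (EQ W₁) (scaleQ p k hp) hW₁'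
  have hΔ₁' : W₁.Δ ≠ 0 := by
    intro h0
    apply hΔ₁
    show (W₁.map (Int.castRingHom ℚ)).Δ = 0
    rw [WeierstrassCurve.map_Δ, h0, map_zero]
  refine ⟨W₁, φ, ψ, hΔ₁', ?_, ?_, hsurj, hker, heq, hψ, hψeq⟩
  · intro ℓ hℓ hne
    obtain ⟨A, hA⟩ := Fermat.Agent.Lib.FrobeniusExists.exists_valuationSubring_liesOverPrime
      (L := Kb) ℓ hℓ
    rw [dvd_Δ_iff hW₁ hp hℓ hne hA]
    exact (hloc ℓ hℓ hne A hA).2.2.1
  · intro ℓ hℓ hne hd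
    obtain ⟨A, hA⟩ := Fermat.Agent.Lib.FrobeniusExists.exists_valuationSubring_liesOverPrime
      (L := Kb) ℓ hℓ
    rw [dvd_Δ_iff hW₁ hp hℓ hne hA] at hd
    rw [dvd_c₄_iff hW₁ hp hℓ hne hA, (hloc ℓ hℓ hne A hA).2.2.2 hd]
    exact lt_irrefl _

end Fermat.Agent.S12.Level.Next
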