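import Mathlib
import Fermat.Agent.S15.Velu.NodeModel
import Fermat.Agent.S15.Velu.Bridge

/-!
# PROJECT M, block [V] (S12), leaf (V2-model), local half: the node step

`W : WeierstrassCurve ℤ` with multiplicative reduction at `A` (`v Δ < 1`, `v c₄ = 1`), `Q` of odd
prime order `p` on `E(ℚ̄)`, **not** in the component of zero at `A`, `C = ⟨Q⟩`.  Then Vélu's model
`veluCurve E C` is again `A`-integral with multiplicative reduction:

* `v t = h`, `v w ≤ h` (so the new `a₄`, `a₆` are integral),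
* the new `c₄` is a unit, the new discriminant has valuation `h`, where `h < 1`, `h ^ p = v Δ`.
-/

set_option autoImplicit false
set_option linter.unusedSectionVars false
set_option linter.unusedVariables false

noncomputable section

namespace Fermat.Agent.S12.Level.NodeStep

open WeierstrassCurve WeierstrassCurve.Affine
open Fermat.Agent.S13.Local Fermat.Agent.S13.Local.NodalInst Fermat.Agent.S13.CU.VarChange
open Fermat.Agent.S15.Velu Fermat.Agent.S15.Velu.ToNodal Fermat.Agent.S15.Velu.Bridge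
open Fermat.Agent.S58.Mult.Unipotent (EQ a₁_eq a₂_eq a₃_eq a₄_eq a₆_eq Δ_eq c₄_eq)

local notation "Kb" => AlgebraicClosure ℚ

section frame

variable {K : Type*} [Field K] [DecidableEq K]

/-- **The node step in a frame**: Vélu's model of the original curve `W` for the image subgroup of
a point `P'` of the translated nodal curve all of whose non-zero multiples are at the node. -/
theorem model_of_frame (A : ValuationSubring K) (W : WeierstrassCurve K)
    (h2 : (2 : K) ≠ 0) {r t : K} (hr : A.valuation r ≤ 1) (hV : IsNodalForm (tr r t • W))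
    (H : NodalData.Hyp A.valuation (tr r t • W).a₁ (tr r t • W).a₂ (tr r t • W).a₄)
    {p : ℕ} (hp : p.Prime) (hp2 : p ≠ 2) {P' : (tr r t • W).toAffine.Point} (hP' : P' ≠ 0)
    (hpP' : p • P' = 0)
    (hall : ∀ j, 0 < j → j < p → A.valuation (ptX (tr r t • W) (j • P')) < 1) :
    ∃ h : A.ValueGroup, h < 1 ∧ h ^ p = A.valuation W.Δ ∧
      A.valuation (veluT W (AddSubgroup.zmultiples (pointEquiv W (tr r t) P') :
        Set W.toAffine.Point)) = h ∧
      A.valuation (veluW W (AddSubgroup.zmultiples (pointEquiv W (tr r t) P') :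
        Set W.toAffine.Point)) ≤ h ∧
      A.valuation (veluCurve W (AddSubgroup.zmultiples (pointEquiv W (tr r t) P') :
        Set W.toAffine.Point)).c₄ = 1 ∧
      A.valuation (veluCurve W (AddSubgroup.zmultiples (pointEquiv W (tr r t) P') :
        Set W.toAffine.Point)).Δ = h := by
  have hfin : (AddSubgroup.zmultiples (pointEquiv W (tr r t) P') :
      Set W.toAffine.Point).Finite := by
    rw [finite_zmultiples, isOfFinAddOrder_iff_nsmul_eq_zero]
    refine ⟨p, hp.pos, ?_⟩
    rw [← map_nsmul, hpP', map_zero]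
  obtain ⟨h, hh1, hhp, hT, hWw, -, -, hc4, hΔ⟩ :=
    NodeModel.model_node (v := A.valuation) hV H h2 hp hp2 hP' hpP' hall
  have hpre := preimage_zmultiples W (tr r t) P'
  have eT := veluT_variableChange W (tr r t) _ hfin
  have eW := veluW_variableChange W (tr r t) _ hfin
  have eC := veluCurve_variableChange W (tr r t) _ hfin
  rw [hpre] at eT eW eC
  have hu : (((tr r t).u⁻¹ : Kˣ) : K) = 1 := by simp [tr]
  rw [hu, one_pow, one_mul] at eT eW
  have hrr : (tr r t).r = r := rfl
  rw [hrr] at eW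
  rw [eT] at hT
  refine ⟨h, hh1, ?_, hT, ?_, ?_, ?_⟩
  · rw [hhp, tr_Δ]
  · -- `w = w' + r t`
    have e : veluW W (AddSubgroup.zmultiples (pointEquiv W (tr r t) P') : Set W.toAffine.Point)
        = veluW (tr r t • W) (AddSubgroup.zmultiples P' : Set (tr r t • W).toAffine.Point)
          + r * veluT W (AddSubgroup.zmultiples (pointEquiv W (tr r t) P') :
            Set W.toAffine.Point) := by
      rw [eW]; ring
    rw [e]
    refine A.valuation.map_add_le hWw.le ?_
    rw [map_mul, hT]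
    calc A.valuation r * h ≤ 1 * h := mul_le_mul_left hr h
      _ = h := one_mul h
  · rw [← tr_c₄ _ r t, ← eC]; exact hc4
  · rw [← tr_Δ _ r t, ← eC]; exact hΔ

end frame

variable {W : WeierstrassCurve ℤ} {A : ValuationSubring Kb}

/-- **THE NODE STEP.**  `W` over `ℤ`, multiplicative at `A`, `Q` of odd prime order `p` not in the
component of zero at `A`: Vélu's model for `⟨Q⟩` has `v t = h`, `v w ≤ h`, `c₄'` a unit and
`v Δ' = h`, with `h < 1`, `h ^ p = v Δ`. -/
theorem model_of_not_inZero (hΔ0 : W.Δ ≠ 0) (hΔ : A.valuation ((W.Δ : ℤ) : Kb) < 1)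
    (hc₄ : A.valuation ((W.c₄ : ℤ) : Kb) = 1) {p : ℕ} (hp : p.Prime) (hp2 : p ≠ 2)
    {Q : ((EQ W)⁄Kb).Point} (hQ : Q ≠ 0) (hpQ : p • Q = 0)
    (hin : ¬ W.InZeroComponentAt A Q) :
    ∃ h : A.ValueGroup, h < 1 ∧ h ^ p = A.valuation ((W.Δ : ℤ) : Kb) ∧
      A.valuation (veluT ((EQ W)⁄Kb) (AddSubgroup.zmultiples Q : Set ((EQ W)⁄Kb).Point)) = h ∧
      A.valuation (veluW ((EQ W)⁄Kb) (AddSubgroup.zmultiples Q : Set ((EQ W)⁄Kb).Point)) ≤ h ∧
      A.valuation (veluCurve ((EQ W)⁄Kb)
        (AddSubgroup.zmultiples Q : Set ((EQ W)⁄Kb).Point)).c₄ = 1 ∧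
      A.valuation (veluCurve ((EQ W)⁄Kb)
        (AddSubgroup.zmultiples Q : Set ((EQ W)⁄Kb).Point)).Δ = h := by
  have hint : ∀ n : ℤ, A.valuation ((n : ℤ) : Kb) ≤ 1 := fun n =>
    (A.valuation_le_one_iff _).mpr (intCast_mem A n)
  have h2 : (2 : Kb) ≠ 0 := two_ne_zero
  have hΔ0' : ((EQ W)⁄Kb).Δ ≠ 0 := by
    rw [Δ_eq]; exact_mod_cast hΔ0
  obtain ⟨r, t, hr, ht, hV, H⟩ := exists_nodal_frame A ((EQ W)⁄Kb) h2
    (by rw [a₁_eq]; exact hint _) (by rw [a₂_eq]; exact hint _) (by rw [a₃_eq]; exact hint _)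
    (by rw [a₄_eq]; exact hint _) (by rw [a₆_eq]; exact hint _) hΔ0'
    (by rw [Δ_eq]; exact hΔ) (by rw [c₄_eq]; exact hc₄)
  set φ := pointEquiv ((EQ W)⁄Kb) (tr r t) with hφ
  set Q' := φ.symm Q with hQ'
  have hφQ : φ Q' = Q := AddEquiv.apply_symm_apply _ _
  have hQ'0 : Q' ≠ 0 := by
    intro h0
    apply hQ
    rw [← hφQ, h0, map_zero]
  have hpQ' : p • Q' = 0 := by
    rw [hQ', ← map_nsmul, hpQ, map_zero]
  have hall : ∀ j, 0 < j → j < p →
      A.valuation (ptX (tr r t • ((EQ W)⁄Kb)) (j • Q')) < 1 := by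
    intro j hj hjp
    by_contra hcon
    rw [not_lt] at hcon
    have hjE0 : (nodalData hV).E0 A.valuation (j • Q') := Or.inr hcon
    have hndvd : ¬ p ∣ j := fun hd => absurd (Nat.le_of_dvd hj hd) (not_le.mpr hjp)
    have hE0 : (nodalData hV).E0 A.valuation Q' :=
      NodalRed.e0_of_nsmul (nodalData hV) A.valuation H hp hpQ' hndvd hjE0
    apply hin
    rw [← hφQ]
    exact inZero_of_e0 hr ht hV H hE0
  have key := model_of_frame A ((EQ W)⁄Kb) h2 hr hV H hp hp2 hQ'0 hpQ' hall
  rw [show pointEquiv ((EQ W)⁄Kb) (tr r t) Q' = Q from hφQ, Δ_eq] at key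
  exact key

end Fermat.Agent.S12.Level.NodeStep
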