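import Mathlib
import Fermat.Agent.S12.Level.Next
import Fermat.Agent.S12.Level.NodeStep

/-!
# PROJECT M, block [V] (S12), leaf (V2-model), (iv'): the local package from the three local steps

`W : WeierstrassCurve ℤ` semistable away from `p`, `C` of odd prime order `p`.  At a
place `A` over `ℓ ≠ p` there are three cases for a generator `Q` of `C`:

* `ℓ ∣ Δ`, `Q` not in the component of zero at `A` : `NodeStep.model_of_not_inZero`;
* `ℓ ∣ Δ`, `Q` in the component of zero at `A` : the statement `E0Step` (hypothesis here);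
* `ℓ ∤ Δ` : the statement `GoodStep` (hypothesis here).

`localOK_of_steps` assembles `Next.LocalOK`, `exists_next_level_of_steps` the next level.
-/

set_option autoImplicit false
set_option linter.unusedSectionVars false
set_option linter.unusedVariables false

noncomputable section

namespace Fermat.Agent.S12.Level.Cases

open WeierstrassCurve WeierstrassCurve.Affine
open Fermat.Agent.S13.Local.NodalInst Fermat.Agent.S15.Velu
open Fermat.Agent.S58.Mult.Unipotent (EQ a₁_eq a₂_eq a₃_eq a₄_eq a₆_eq Δ_eq c₄_eq)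
open Fermat.Agent.S12.Level.Next

local notation "Kb" => AlgebraicClosure ℚ
local notation "GQ" => (AlgebraicClosure ℚ ≃ₐ[ℚ] AlgebraicClosure ℚ)

/-- a subgroup of prime order is generated by each of its non-zero elements -/
theorem zmultiples_eq_of_card_prime {G : Type*} [AddGroup G] (C : AddSubgroup G) {p : ℕ}
    (hp : p.Prime) (hcard : Nat.card C = p) {Q : G} (hQC : Q ∈ C) (hQ : Q ≠ 0) :
    AddSubgroup.zmultiples Q = C := by
  have hfinC : Finite C := Nat.finite_of_card_ne_zero (by rw [hcard]; exact hp.ne_zero)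
  have hle : AddSubgroup.zmultiples Q ≤ C := (AddSubgroup.zmultiples_le).mpr hQC
  have hpQ : p • Q = 0 := by
    have h1 : Nat.card C • (⟨Q, hQC⟩ : C) = 0 := card_nsmul_eq_zero'
    rw [hcard] at h1
    exact congrArg Subtype.val h1
  refine AddSubgroup.eq_of_le_of_card_ge hle ?_
  rw [hcard, Nat.card_zmultiples]
  rcases (Nat.dvd_prime hp).mp (addOrderOf_dvd_of_nsmul_eq_zero hpQ) with h1 | h1
  · exact absurd (AddMonoid.addOrderOf_eq_one_iff.mp h1) hQ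
  · exact h1.ge

/-- the statement of the step at a multiplicative place where `Q` is in the component of zero -/
def E0Step (W : WeierstrassCurve ℤ) (p : ℕ) : Prop :=
  ∀ (ℓ : ℕ) (A : ValuationSubring Kb) (Q : ((EQ W)⁄Kb).Point), ℓ.Prime → (ℓ : ℤ) ∣ W.Δ →
    ¬ (ℓ : ℤ) ∣ W.c₄ → A.LiesOverPrime ℓ → ℓ ≠ p → Q ≠ 0 → p • Q = 0 →
    W.InZeroComponentAt A Q →
    A.valuation (veluT ((EQ W)⁄Kb) (AddSubgroup.zmultiples Q : Set ((EQ W)⁄Kb).Point)) ≤ 1 ∧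
    A.valuation (veluW ((EQ W)⁄Kb) (AddSubgroup.zmultiples Q : Set ((EQ W)⁄Kb).Point)) ≤ 1 ∧
    A.valuation (veluCurve ((EQ W)⁄Kb)
      (AddSubgroup.zmultiples Q : Set ((EQ W)⁄Kb).Point)).c₄ = 1 ∧
    A.valuation (veluCurve ((EQ W)⁄Kb)
      (AddSubgroup.zmultiples Q : Set ((EQ W)⁄Kb).Point)).Δ = A.valuation ((W.Δ : ℤ) : Kb) ^ p

/-- the statement of the step at a place of good reduction -/
def GoodStep (W : WeierstrassCurve ℤ) (p : ℕ) : Prop :=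
  ∀ (ℓ : ℕ) (A : ValuationSubring Kb) (Q : ((EQ W)⁄Kb).Point), ℓ.Prime →
    ¬ (ℓ : ℤ) ∣ W.Δ → A.LiesOverPrime ℓ → ℓ ≠ p → Q ≠ 0 → p • Q = 0 →
    A.valuation (veluT ((EQ W)⁄Kb) (AddSubgroup.zmultiples Q : Set ((EQ W)⁄Kb).Point)) ≤ 1 ∧
    A.valuation (veluW ((EQ W)⁄Kb) (AddSubgroup.zmultiples Q : Set ((EQ W)⁄Kb).Point)) ≤ 1 ∧
    A.valuation (veluCurve ((EQ W)⁄Kb)
      (AddSubgroup.zmultiples Q : Set ((EQ W)⁄Kb).Point)).Δ = 1

variable {W : WeierstrassCurve ℤ}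

/-- **the local package from the three local steps** -/
theorem localOK_of_steps (hΔ : W.Δ ≠ 0) {p : ℕ} (hp : p.Prime) (hp2 : p ≠ 2)
    (hsemi : ∀ ℓ : ℕ, ℓ.Prime → ℓ ≠ p → (ℓ : ℤ) ∣ W.Δ → ¬ (ℓ : ℤ) ∣ W.c₄)
    (C : AddSubgroup ((EQ W)⁄Kb).Point) (hcard : Nat.card C = p)
    (hE0 : E0Step W p) (hgood : GoodStep W p) :
    LocalOK W p (C : Set ((EQ W)⁄Kb).Point) := by
  have hfinC : Finite C := Nat.finite_of_card_ne_zero (by rw [hcard]; exact hp.ne_zero)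
  -- a generator
  have hnt : Nontrivial C := by
    rw [← Finite.one_lt_card_iff_nontrivial, hcard]; exact hp.one_lt
  obtain ⟨⟨Q, hQC⟩, hQ0⟩ := exists_ne (0 : C)
  have hQ : Q ≠ 0 := fun h => hQ0 (Subtype.ext h)
  have hpQ : p • Q = 0 := by
    have h1 : Nat.card C • (⟨Q, hQC⟩ : C) = 0 := card_nsmul_eq_zero'
    rw [hcard] at h1
    exact congrArg Subtype.val h1
  have hC : AddSubgroup.zmultiples Q = C := zmultiples_eq_of_card_prime C hp hcard hQC hQ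
  intro ℓ hℓ hne A hA
  rw [← hC]
  by_cases hd : (ℓ : ℤ) ∣ W.Δ
  · have hc : ¬ (ℓ : ℤ) ∣ W.c₄ := hsemi ℓ hℓ hne hd
    have hvΔ : A.valuation ((W.Δ : ℤ) : Kb) < 1 :=
      Fermat.Agent.S05.LocalVal.intCast_valuation_lt_one hℓ hA hd
    have hvc : A.valuation ((W.c₄ : ℤ) : Kb) = 1 :=
      Fermat.Agent.S05.LocalVal.intCast_valuation_eq_one hℓ hA hc
    by_cases hin : W.InZeroComponentAt A Q
    · obtain ⟨ht, hw, hc4, hΔ'⟩ := hE0 ℓ A Q hℓ hd hc hA hne hQ hpQ hin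
      have hlt : A.valuation (veluCurve ((EQ W)⁄Kb)
          (AddSubgroup.zmultiples Q : Set ((EQ W)⁄Kb).Point)).Δ < 1 := by
        rw [hΔ']
        exact pow_lt_one' hvΔ hp.ne_zero
      exact ⟨ht, hw, ⟨fun _ => hd, fun _ => hlt⟩, fun _ => hc4⟩
    · obtain ⟨h, hh1, -, ht, hw, hc4, hΔ'⟩ :=
        NodeStep.model_of_not_inZero hΔ hvΔ hvc hp hp2 hQ hpQ hin
      refine ⟨ht.le.trans hh1.le, hw.trans hh1.le, ⟨fun _ => hd, fun _ => ?_⟩, fun _ => hc4⟩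
      rw [hΔ']; exact hh1
  · obtain ⟨ht, hw, hΔ'⟩ := hgood ℓ A Q hℓ hd hA hne hQ hpQ
    refine ⟨ht, hw, ⟨fun hlt => absurd hlt (by rw [hΔ']; exact lt_irrefl _), fun h => absurd h hd⟩,
      fun hlt => absurd hlt (by rw [hΔ']; exact lt_irrefl _)⟩

/-- **(V2-model): the next level**, from the two outstanding local steps. -/
theorem exists_next_level_of_steps (W : WeierstrassCurve ℤ) (hΔ : W.Δ ≠ 0)
    {p : ℕ} (hp : p.Prime) (hp2 : p ≠ 2)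
    (hsemi : ∀ ℓ : ℕ, ℓ.Prime → ℓ ≠ p → (ℓ : ℤ) ∣ W.Δ → ¬ (ℓ : ℤ) ∣ W.c₄)
    (C : AddSubgroup ((EQ W)⁄Kb).Point) (hcard : Nat.card C = p)
    (hstab : ∀ σ : GQ, ∀ Q ∈ C, σ • Q ∈ C)
    (hE0 : E0Step W p) (hgood : GoodStep W p) :
    ∃ (W₁ : WeierstrassCurve ℤ) (φ : ((EQ W)⁄Kb).Point →+ ((EQ W₁)⁄Kb).Point)
      (ψ : ((EQ W₁)⁄Kb).Point →+ ((EQ W)⁄Kb).Point),
      W₁.Δ ≠ 0 ∧
      (∀ ℓ : ℕ, ℓ.Prime → ℓ ≠ p → ((ℓ : ℤ) ∣ W₁.Δ ↔ (ℓ : ℤ) ∣ W.Δ)) ∧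
      (∀ ℓ : ℕ, ℓ.Prime → ℓ ≠ p → (ℓ : ℤ) ∣ W₁.Δ → ¬ (ℓ : ℤ) ∣ W₁.c₄) ∧
      Function.Surjective φ ∧ (∀ P, φ P = 0 ↔ P ∈ C) ∧
      (∀ (σ : GQ) (P : ((EQ W)⁄Kb).Point), φ (σ • P) = σ • φ P) ∧
      (∀ P : ((EQ W)⁄Kb).Point, ψ (φ P) = p • P) ∧
      (∀ (σ : GQ) (P : ((EQ W₁)⁄Kb).Point), ψ (σ • P) = σ • ψ P) :=
  exists_next_level_of_local W hΔ hp C hcard hstab
    (localOK_of_steps hΔ hp hp2 hsemi C hcard hE0 hgood)

end Fermat.Agent.S12.Level.Cases
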