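import Mathlib
import Fermat.Agent.S12.Level.Cases
import Fermat.Agent.S12.Tower.Abs
import Fermat.Agent.S12.V3.ZeroComp
import Fermat.Agent.S12.V4.TorsionBound
import Fermat.Agent.S13.Global
import Fermat.Agent.S58.Red.Good

/-!
# PROJECT M, block [V] (S12), route alpha: a level away from `p`

`W : WeierstrassCurve ℤ`, `E = ((W.map (Int.castRingHom ℚ))⁄ℚ̄).Point`, `Q` a Galois-fixed point of
prime order `p`, `W` semistable at the primes `ℓ ≠ p`.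

* `openStab` : every point of a curve over `ℚ` has an open stabiliser;
* `not_inZero_of_small`, `three_dvd_Δ`, `not_inZero_of_S15` : the hypotheses of S15 at `2`, `3` hold
  at every level, so S15 gives `Q ∉ E⁰` at every multiplicative `ℓ ≠ p`;
* `locFree_away` : `Tower.LocFree` at the places not above `p`;
* `hout_away` : the hypothesis `hout` of `Tower.isAdmissibleExtensionCts_of_local`;
* `bound` : the hypothesis `hB` of `Tower.false_of_tower` from one good prime `l0 ≠ p`.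
-/

set_option autoImplicit false
set_option linter.unusedSectionVars false
set_option linter.unusedVariables false

noncomputable section

namespace Fermat.Agent.S12.Level.Away

open WeierstrassCurve WeierstrassCurve.Affine WeierstrassCurve.Affine.Point
open Fermat.Agent.S13.Global

local notation "Kb" => AlgebraicClosure ℚ
local notation "GQ" => (AlgebraicClosure ℚ ≃ₐ[ℚ] AlgebraicClosure ℚ)

/-! ### open stabilisers -/

/-- **(i)** every point of a curve over `ℚ` is fixed by the fixing subgroup of a number field -/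
theorem openStab (W' : Affine ℚ) (x : (W'⁄Kb).Point) : Fermat.Agent.S12.Tower.OpenStab x := by
  haveI : Finite (coords x) := (finite_coords x).to_subtype
  refine ⟨IntermediateField.adjoin ℚ (coords x),
    IntermediateField.finiteDimensional_adjoin fun z _ => Algebra.IsIntegral.isIntegral z,
    fun σ hσ => ?_⟩
  apply smul_point_eq_of_fix
  intro a b hab hP
  have hfix : ∀ z ∈ coords x, σ z = z := fun z hz =>
    (IntermediateField.mem_fixingSubgroup_iff _ _).mp hσ z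
      (IntermediateField.subset_adjoin ℚ _ hz)
  exact ⟨hfix a ⟨a, b, hab, hP, Or.inl rfl⟩, hfix b ⟨a, b, hab, hP, Or.inr rfl⟩⟩

/-! ### the hypotheses of S15 at `2` and `3` -/

section S15

variable {p : ℕ} (hp : p.Prime) (W : WeierstrassCurve ℤ) (hΔ : W.Δ ≠ 0)
  (Q : ((W.map (Int.castRingHom ℚ))⁄Kb).Point)
  (hQfix : ∀ σ : GQ, σ • Q = Q) (hQord : addOrderOf Q = p)

include hp hΔ hQfix hQord in
/-- **(ii-a)** a rational point of prime order `p` is not in the zero component at a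
multiplicative `ℓ ≠ p` with `p ∤ ℓ - 1`, `p ∤ ℓ + 1`. -/
theorem not_inZero_of_small {ℓ : ℕ} (hℓ : ℓ.Prime) (hℓp : ℓ ≠ p) (hℓΔ : (ℓ : ℤ) ∣ W.Δ)
    (hℓc : ¬ (ℓ : ℤ) ∣ W.c₄) (A : ValuationSubring Kb) (hA : A.LiesOverPrime ℓ)
    (h1 : ¬ p ∣ ℓ - 1) (h2 : ¬ p ∣ ℓ + 1) : ¬ W.InZeroComponentAt A Q := fun h =>
  (Fermat.Agent.S15.E2.SeamCL.dvd_pred_or_succ hp W hΔ Q hQfix hQord hℓ hℓp hℓΔ hℓc A hA h).elim
    h1 h2

include hp hQfix hQord in
/-- **(ii-b)** a rational point of prime order `p ≥ 11` forces bad reduction at `3`. -/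
theorem three_dvd_Δ (hp11 : 11 ≤ p) : (3 : ℤ) ∣ W.Δ := by
  by_contra h
  have hgood : W.IsGoodPrimeFor 3 := h
  have hcop : p.Coprime 3 := by
    rw [Nat.coprime_primes hp Nat.prime_three]; omega
  have := Fermat.Agent.S12.V4.TorsionBound.card_le W Nat.prime_three hgood hcop Q hQfix hQord
  omega

/-- the statement S15 (the frozen type, as a hypothesis) -/
def S15Stmt : Prop :=
  ∀ {p : ℕ} (hp : p.Prime) (hp' : p ∉ ({2, 3, 5, 7, 13} : Finset ℕ))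
    (W : WeierstrassCurve ℤ) (hΔ : W.Δ ≠ 0)
    (Q : ((W.map (Int.castRingHom ℚ))⁄(AlgebraicClosure ℚ)).Point)
    (hQfix : ∀ σ : AlgebraicClosure ℚ ≃ₐ[ℚ] AlgebraicClosure ℚ, σ • Q = Q)
    (hQord : addOrderOf Q = p)
    (h2Δ : (2 : ℤ) ∣ W.Δ) (h2c₄ : ¬ (2 : ℤ) ∣ W.c₄)
    (h2 : ∀ A : ValuationSubring (AlgebraicClosure ℚ), A.LiesOverPrime 2 →
      ¬ W.InZeroComponentAt A Q)
    (h3Δ : (3 : ℤ) ∣ W.Δ) (h3c₄ : ¬ (3 : ℤ) ∣ W.c₄)
    (h3 : ∀ A : ValuationSubring (AlgebraicClosure ℚ), A.LiesOverPrime 3 →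
      ¬ W.InZeroComponentAt A Q)
    {ℓ : ℕ} (hℓ : ℓ.Prime) (hℓp : ℓ ≠ p) (hℓΔ : (ℓ : ℤ) ∣ W.Δ) (hℓc₄ : ¬ (ℓ : ℤ) ∣ W.c₄)
    (A : ValuationSubring (AlgebraicClosure ℚ)) (hA : A.LiesOverPrime ℓ),
    ¬ W.InZeroComponentAt A Q

include hp hΔ hQfix hQord in
/-- **(ii-c)** S15 at a level: `Q` misses the zero component at every multiplicative `ℓ ≠ p`. -/
theorem not_inZero_of_S15 (hS15 : S15Stmt) (hp17 : 17 ≤ p)
    (hsemi : ∀ ℓ : ℕ, ℓ.Prime → ℓ ≠ p → (ℓ : ℤ) ∣ W.Δ → ¬ (ℓ : ℤ) ∣ W.c₄)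
    (h2Δ : (2 : ℤ) ∣ W.Δ) {ℓ : ℕ} (hℓ : ℓ.Prime) (hℓp : ℓ ≠ p) (hℓΔ : (ℓ : ℤ) ∣ W.Δ)
    (A : ValuationSubring Kb) (hA : A.LiesOverPrime ℓ) : ¬ W.InZeroComponentAt A Q := by
  have h2p : (2 : ℕ) ≠ p := by omega
  have h3p : (3 : ℕ) ≠ p := by omega
  have h3Δ : (3 : ℤ) ∣ W.Δ := three_dvd_Δ hp W Q hQfix hQord (by omega)
  have h2c : ¬ (2 : ℤ) ∣ W.c₄ := hsemi 2 Nat.prime_two h2p (by exact_mod_cast h2Δ)
  have h3c : ¬ (3 : ℤ) ∣ W.c₄ := hsemi 3 Nat.prime_three h3p (by exact_mod_cast h3Δ)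
  have hnd : ∀ m : ℕ, 0 < m → m < p → ¬ p ∣ m := fun m hm hmp hd =>
    absurd (Nat.le_of_dvd hm hd) (not_le.mpr hmp)
  refine hS15 hp ?_ W hΔ Q hQfix hQord h2Δ h2c ?_ h3Δ h3c ?_ hℓ hℓp hℓΔ
    (hsemi ℓ hℓ hℓp hℓΔ) A hA
  · intro hmem
    simp only [Finset.mem_insert, Finset.mem_singleton] at hmem
    omega
  · intro A₂ hA₂
    exact not_inZero_of_small hp W hΔ Q hQfix hQord Nat.prime_two h2p
      (by exact_mod_cast h2Δ) (by exact_mod_cast h2c) A₂ hA₂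
      (hnd 1 one_pos (by omega)) (hnd 3 (by omega) (by omega))
  · intro A₃ hA₃
    exact not_inZero_of_small hp W hΔ Q hQfix hQord Nat.prime_three h3p
      (by exact_mod_cast h3Δ) (by exact_mod_cast h3c) A₃ hA₃
      (hnd 2 (by omega) (by omega)) (hnd 4 (by omega) (by omega))

end S15

/-! ### `LocFree` away from `p` -/

section loc

variable {p : ℕ} (hp : p.Prime) (W : WeierstrassCurve ℤ) (hΔ : W.Δ ≠ 0)
  (hsemi : ∀ ℓ : ℕ, ℓ.Prime → ℓ ≠ p → (ℓ : ℤ) ∣ W.Δ → ¬ (ℓ : ℤ) ∣ W.c₄)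

open Classical in
include hp in
/-- good reduction at `ℓ ≠ p`: a point killed by `p` which inertia produces as a difference is
zero -/
theorem sub_eq_zero_of_good {ℓ : ℕ} (hℓ : ℓ.Prime) (hℓp : ℓ ≠ p) (hgood : ¬ (ℓ : ℤ) ∣ W.Δ)
    (A : ValuationSubring Kb) (hA : A.LiesOverPrime ℓ) {σ : GQ}
    (hσ : σ ∈ A.inertiaSubgroupIn ℚ) (x : ((W.map (Int.castRingHom ℚ))⁄Kb).Point)
    (hpx : p • (σ • x - x) = 0) : σ • x = x := by
  have h := Fermat.Agent.S58.Red.Good.isRed_of_good W hℓ hgood A hA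
  have hv : A.valuation ((p : ℕ) : Kb) = 1 :=
    Fermat.Agent.S05.LocalVal.natCast_prime_valuation_eq_one hℓ hA hp (Ne.symm hℓp)
  have hred : Fermat.Agent.S58.Red.Hom.red h (σ • x - x) = 0 := by
    rw [sub_eq_add_neg, Fermat.Agent.S58.Red.Hom.red_add, Fermat.Agent.S58.Red.Hom.red_neg,
      Fermat.Agent.S58.Red.Galois.red_smul_of_mem_inertia h hσ x, add_neg_cancel]
  exact sub_eq_zero.mp
    (Fermat.Agent.S58.Red.Hom.eq_zero_of_red_eq_zero_of_nsmul_eq_zero h hv hpx hred)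

variable (Q : ((W.map (Int.castRingHom ℚ))⁄Kb).Point) (hQord : addOrderOf Q = p)
  (hnot : ∀ ℓ : ℕ, ℓ.Prime → ℓ ≠ p → (ℓ : ℤ) ∣ W.Δ → ∀ A : ValuationSubring Kb,
    A.LiesOverPrime ℓ → ¬ W.InZeroComponentAt A Q)

include hp hQord in
theorem nsmul_eq_zero_of_mem_zmultiples {d : ((W.map (Int.castRingHom ℚ))⁄Kb).Point}
    (hd : d ∈ AddSubgroup.zmultiples Q) : p • d = 0 := by
  obtain ⟨k, rfl⟩ := AddSubgroup.mem_zmultiples_iff.mp hd
  have hpQ : p • Q = 0 := by rw [← hQord]; exact addOrderOf_nsmul_eq_zero Q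
  rw [smul_comm, hpQ, zsmul_zero]

include hp hQord in
/-- a non-zero multiple of `Q` generates `⟨Q⟩` -/
theorem mem_zmultiples_of_ne_zero {d : ((W.map (Int.castRingHom ℚ))⁄Kb).Point}
    (hd : d ∈ AddSubgroup.zmultiples Q) (hd0 : d ≠ 0) : Q ∈ AddSubgroup.zmultiples d := by
  have hcard : Nat.card (AddSubgroup.zmultiples Q) = p := by
    rw [Nat.card_zmultiples, hQord]
  rw [Fermat.Agent.S12.Level.Cases.zmultiples_eq_of_card_prime (AddSubgroup.zmultiples Q) hp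
    hcard hd hd0]
  exact AddSubgroup.mem_zmultiples Q

include hp hΔ hsemi hQord hnot in
/-- **(iii)** `Tower.LocFree` at the places not above `p`. -/
theorem locFree_away {ℓ : ℕ} (hℓ : ℓ.Prime) (hℓp : ℓ ≠ p) (A : ValuationSubring Kb)
    (hA : A.LiesOverPrime ℓ) {σ : GQ} (hσ : σ ∈ A.inertiaSubgroupIn ℚ)
    (x : ((W.map (Int.castRingHom ℚ))⁄Kb).Point)
    (hx : σ • x - x ∈ AddSubgroup.zmultiples Q) : σ • x = x := by
  by_cases hd : (ℓ : ℤ) ∣ W.Δ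
  · have hc := hsemi ℓ hℓ hℓp hd
    by_contra hne
    have hd0 : σ • x - x ≠ 0 := fun h => hne (sub_eq_zero.mp h)
    have hin : W.InZeroComponentAt A (σ • x - x) :=
      Fermat.Agent.S12.V3.ZeroComp.inZero_smul_sub W hΔ hℓ hd hc A hA hσ x
    have hQmem := mem_zmultiples_of_ne_zero hp W Q hQord hx hd0
    have hle : AddSubgroup.zmultiples (σ • x - x)
        ≤ Fermat.Agent.S12.V3.ZeroComp.zeroComp W hΔ hℓ hd hc A hA :=
      AddSubgroup.zmultiples_le.mpr hin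
    exact hnot ℓ hℓ hℓp hd A hA (hle hQmem)
  · exact sub_eq_zero_of_good hp W hℓ hℓp hd A hA hσ x
      (nsmul_eq_zero_of_mem_zmultiples hp W Q hQord hx)

end loc

/-! ### the hypothesis `hout` of admissibility -/

section hout

/-- the Galois action on the torsion module commutes with the `ZMod n`-action -/
instance smulCommClass_tors (W' : Affine ℚ) (n : ℕ) : SMulCommClass GQ (ZMod n) (Tors W' n) where
  smul_comm σ a x := by
    obtain ⟨k, rfl⟩ := ZMod.intCast_surjective a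
    rw [Int.cast_smul_eq_zsmul, Int.cast_smul_eq_zsmul, smul_comm]

theorem nsmul_coe_tors {W' : Affine ℚ} {n : ℕ} (x : Tors W' n) :
    n • (x : (W'⁄Kb).Point) = 0 := by
  have := (Submodule.mem_torsionBy_iff _ _).mp x.2
  rwa [natCast_zsmul] at this

variable {p : ℕ} (hp : p.Prime) (W : WeierstrassCurve ℤ) (hΔ : W.Δ ≠ 0)
  (hsemi : ∀ ℓ : ℕ, ℓ.Prime → ℓ ≠ p → (ℓ : ℤ) ∣ W.Δ → ¬ (ℓ : ℤ) ∣ W.c₄)

/-- the `p`-torsion of the zero component at a multiplicative place, as a submodule -/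
def zeroSub {ℓ : ℕ} (hℓ : ℓ.Prime) (hd : (ℓ : ℤ) ∣ W.Δ) (hc : ¬ (ℓ : ℤ) ∣ W.c₄)
    (A : ValuationSubring Kb) (hA : A.LiesOverPrime ℓ) (p : ℕ) :
    Submodule (ZMod p) (Tors (W.map (Int.castRingHom ℚ)) p) where
  carrier := {x | W.InZeroComponentAt A (x : ((W.map (Int.castRingHom ℚ))⁄Kb).Point)}
  zero_mem' := Or.inl rfl
  add_mem' := by
    intro a b ha hb
    exact (Fermat.Agent.S12.V3.ZeroComp.zeroComp W hΔ hℓ hd hc A hA).add_mem ha hb
  smul_mem' := by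
    intro a x hx
    obtain ⟨k, rfl⟩ := ZMod.intCast_surjective a
    rw [Int.cast_smul_eq_zsmul]
    exact (Fermat.Agent.S12.V3.ZeroComp.zeroComp W hΔ hℓ hd hc A hA).zsmul_mem hx k

include hp hΔ hsemi in
/-- **(iv)** the hypothesis `hout` of `Tower.isAdmissibleExtensionCts_of_local` for the `p`-torsion
module of a level. -/
theorem hout_away (q : Tors (W.map (Int.castRingHom ℚ)) p) (hq : q ≠ 0)
    (hnot : ∀ ℓ : ℕ, ℓ.Prime → ℓ ≠ p → (ℓ : ℤ) ∣ W.Δ → ∀ A : ValuationSubring Kb,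
      A.LiesOverPrime ℓ →
        ¬ W.InZeroComponentAt A (q : ((W.map (Int.castRingHom ℚ))⁄Kb).Point))
    (ℓ : ℕ) (hℓ : ℓ.Prime) (hℓp : ℓ ≠ p) (A : ValuationSubring Kb) (hA : A.LiesOverPrime ℓ) :
    ∃ Z : Submodule (ZMod p) (Tors (W.map (Int.castRingHom ℚ)) p), q ∉ Z ∧
      ∀ σ ∈ A.inertiaSubgroupIn ℚ, (∀ x : Tors (W.map (Int.castRingHom ℚ)) p, σ • x - x ∈ Z) ∧
        ∀ z ∈ Z, σ • z = z := by
  by_cases hd : (ℓ : ℤ) ∣ W.Δ
  · have hc := hsemi ℓ hℓ hℓp hd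
    refine ⟨zeroSub W hΔ hℓ hd hc A hA p, hnot ℓ hℓ hℓp hd A hA, fun σ hσ => ⟨fun x => ?_,
      fun z hz => ?_⟩⟩
    · exact Fermat.Agent.S12.V3.ZeroComp.inZero_smul_sub W hΔ hℓ hd hc A hA hσ
        (x : ((W.map (Int.castRingHom ℚ))⁄Kb).Point)
    · exact Subtype.ext (Fermat.Agent.S12.V3.ZeroComp.fix_of_inZero W hΔ hℓ hd hc A hA hp
        (Ne.symm hℓp) hσ hz (nsmul_coe_tors z))
  · have hcop : p.Coprime ℓ := (Nat.coprime_primes hp hℓ).mpr (Ne.symm hℓp)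
    have hfix : ∀ σ ∈ A.inertiaSubgroupIn ℚ, ∀ x : Tors (W.map (Int.castRingHom ℚ)) p,
        σ • x = x := fun σ hσ x =>
      Subtype.ext (Fermat.Agent.S58.Red.Good.good W ℓ hℓ hd A hA σ hσ p hcop _ (nsmul_coe_tors x))
    refine ⟨⊥, fun h => hq ((Submodule.mem_bot _).mp h), fun σ hσ => ⟨fun x => ?_, fun z _ =>
      hfix σ hσ z⟩⟩
    rw [hfix σ hσ x, sub_self]
    exact Submodule.zero_mem _

end hout

/-! ### the bound -/

/-- **(v)** one good prime `l0 ≠ p` bounds the Galois-fixed points of `p`-power order. -/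
theorem bound {p : ℕ} (hp : p.Prime) (W : WeierstrassCurve ℤ) {l0 : ℕ} (hl0 : l0.Prime)
    (hl0p : l0 ≠ p) (hgood : ¬ (l0 : ℤ) ∣ W.Δ)
    (R : ((W.map (Int.castRingHom ℚ))⁄Kb).Point) (hfix : ∀ σ : GQ, σ • R = R) (n : ℕ)
    (hord : addOrderOf R = p ^ n) : p ^ n ≤ 2 * l0 + 1 := by
  have hcop : (p ^ n).Coprime l0 :=
    Nat.Coprime.pow_left n ((Nat.coprime_primes hp hl0).mpr (Ne.symm hl0p))
  exact Fermat.Agent.S12.V4.TorsionBound.card_le W hl0 hgood hcop R hfix hord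

end Fermat.Agent.S12.Level.Away
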