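/-
PROJECT M, block [V] (S12), leaf (V2-model), local half (helper27): integrality of the kernel.

`W : WeierstrassCurve ℤ`, `E = W_ℚ̄`, `A` a valuation subring of `ℚ̄`, `p` a prime which is a unit
of `A`.  A non-zero point of `E` killed by `p` has an `A`-integral `x`-coordinate (main's
`S58/Red/Kernel.nsmul_ne_zero_of_inKer`: no prime-to-the-residue-characteristic torsion in the
kernel of reduction of ANY integral model).  Hence Vélu's sums `t`, `w` of a cyclic subgroup of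
odd prime order `p` are `A`-integral.
-/
import Fermat.Agent.S58.Red.Kernel
import Fermat.Agent.S58.Mult.Unipotent
import Fermat.Agent.S15.Velu.Defs

set_option autoImplicit false
set_option linter.unusedSectionVars false

noncomputable section

namespace Fermat.Agent.S12.Level.KerInt

open WeierstrassCurve WeierstrassCurve.Affine
open Fermat.Agent.S13.Local.NodalInst
open Fermat.Agent.S15.Velu
open Fermat.Agent.S58.Mult.Unipotent (EQ a₁_eq a₂_eq a₃_eq a₄_eq a₆_eq Δ_eq c₄_eq)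

local notation "Kb" => AlgebraicClosure ℚ

variable (W : WeierstrassCurve ℤ) (A : ValuationSubring Kb)

theorem b₂_eq : ((EQ W)⁄Kb).b₂ = ((W.b₂ : ℤ) : Kb) := by
  show ((W.map (Int.castRingHom ℚ)).map (algebraMap ℚ Kb)).b₂ = _
  rw [WeierstrassCurve.map_b₂, WeierstrassCurve.map_b₂]
  simp

theorem b₄_eq : ((EQ W)⁄Kb).b₄ = ((W.b₄ : ℤ) : Kb) := by
  show ((W.map (Int.castRingHom ℚ)).map (algebraMap ℚ Kb)).b₄ = _
  rw [WeierstrassCurve.map_b₄, WeierstrassCurve.map_b₄]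
  simp

theorem b₆_eq : ((EQ W)⁄Kb).b₆ = ((W.b₆ : ℤ) : Kb) := by
  show ((W.map (Int.castRingHom ℚ)).map (algebraMap ℚ Kb)).b₆ = _
  rw [WeierstrassCurve.map_b₆, WeierstrassCurve.map_b₆]
  simp

/-- The coefficients of `E = W_ℚ̄` are `A`-integral. -/
theorem integralCoeffs :
    Fermat.Agent.S58.Red.Kernel.IntegralCoeffs ((EQ W)⁄Kb) A.valuation := by
  have hint : ∀ n : ℤ, A.valuation ((n : ℤ) : Kb) ≤ 1 := fun n =>
    (A.valuation_le_one_iff _).mpr (intCast_mem A n)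
  refine ⟨?_, ?_, ?_, ?_, ?_⟩
  · rw [a₁_eq]; exact hint _
  · rw [a₂_eq]; exact hint _
  · rw [a₃_eq]; exact hint _
  · rw [a₄_eq]; exact hint _
  · rw [a₆_eq]; exact hint _

variable {W A}

/-- **A torsion point of order prime to the residue characteristic has an integral
`x`-coordinate.** -/
theorem ptX_mem {n : ℕ} (hnv : A.valuation ((n : ℕ) : Kb) = 1) {P : ((EQ W)⁄Kb).Point}
    (hP : P ≠ 0) (hnP : n • P = 0) : ptX ((EQ W)⁄Kb) P ∈ A := by
  by_contra hx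
  have hK : Fermat.Agent.S58.Red.Kernel.InKer ((EQ W)⁄Kb) A.valuation P := by
    cases P with
    | zero => exact absurd rfl hP
    | some x y h =>
      show 1 < A.valuation x
      have hx' : x ∉ A := hx
      rw [← A.valuation_le_one_iff, not_le] at hx'
      exact hx'
  exact Fermat.Agent.S58.Red.Kernel.nsmul_ne_zero_of_inKer (integralCoeffs W A) hK hP hnv hnP

theorem ofNat_mem (m : ℕ) [m.AtLeastTwo] : (OfNat.ofNat m : Kb) ∈ A := by
  rw [← Nat.cast_ofNat (R := Kb)]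
  exact natCast_mem A _

/-- Vélu's `t`-term of an integral `x` is integral. -/
theorem tTerm_mem {x : Kb} (hx : x ∈ A) : tTerm ((EQ W)⁄Kb) x ∈ A := by
  show 6 * x ^ 2 + ((EQ W)⁄Kb).b₂ * x + ((EQ W)⁄Kb).b₄ ∈ A
  rw [b₂_eq, b₄_eq]
  exact A.add_mem _ _ (A.add_mem _ _ (A.mul_mem _ _ (ofNat_mem 6) (A.pow_mem hx 2))
    (A.mul_mem _ _ (intCast_mem A _) hx)) (intCast_mem A _)

/-- Vélu's `w`-term of an integral `x` is integral. -/
theorem wTerm_mem {x : Kb} (hx : x ∈ A) : wTerm ((EQ W)⁄Kb) x ∈ A := by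
  show 10 * x ^ 3 + 2 * ((EQ W)⁄Kb).b₂ * x ^ 2 + 3 * ((EQ W)⁄Kb).b₄ * x + ((EQ W)⁄Kb).b₆ ∈ A
  rw [b₂_eq, b₄_eq, b₆_eq]
  refine A.add_mem _ _ (A.add_mem _ _ (A.add_mem _ _ ?_ ?_) ?_) (intCast_mem A _)
  · exact A.mul_mem _ _ (ofNat_mem 10) (A.pow_mem hx 3)
  · exact A.mul_mem _ _ (A.mul_mem _ _ (ofNat_mem 2) (intCast_mem A _)) (A.pow_mem hx 2)
  · exact A.mul_mem _ _ (A.mul_mem _ _ (ofNat_mem 3) (intCast_mem A _)) hx

section cyclic

variable {p : ℕ} (hp : p.Prime) (hpv : A.valuation ((p : ℕ) : Kb) = 1)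
  {Q : ((EQ W)⁄Kb).Point} (hQ : Q ≠ 0) (hpQ : p • Q = 0)

include hp hQ hpQ in
theorem nsmul_ne_zero {k : ℕ} (hk : ¬ p ∣ k) : k • Q ≠ 0 := by
  have : Fact p.Prime := ⟨hp⟩
  have ho : addOrderOf Q = p := addOrderOf_eq_prime hpQ hQ
  intro h
  apply hk
  rw [← ho]
  exact addOrderOf_dvd_of_nsmul_eq_zero h

include hp hpv hQ hpQ in
/-- The `x`-coordinates of the non-zero multiples of `Q` are integral. -/
theorem ptX_nsmul_mem {k : ℕ} (hk : ¬ p ∣ k) : ptX ((EQ W)⁄Kb) (k • Q) ∈ A :=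
  ptX_mem hpv (nsmul_ne_zero hp hQ hpQ hk) (by rw [smul_comm, hpQ]; exact nsmul_zero k)

theorem not_dvd_of_mem_Icc_half {p k : ℕ} (hk : k ∈ Finset.Icc 1 ((p - 1) / 2)) : ¬ p ∣ k := by
  rw [Finset.mem_Icc] at hk
  intro hd
  have := Nat.le_of_dvd (by omega) hd
  omega

theorem not_dvd_of_mem_Icc {p k : ℕ} (hk : k ∈ Finset.Icc 1 (p - 1)) : ¬ p ∣ k := by
  rw [Finset.mem_Icc] at hk
  intro hd
  have := Nat.le_of_dvd (by omega) hd
  omega

include hp hpv hQ hpQ in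
/-- **Vélu's `t` is integral.** -/
theorem veluT_mem (hp2 : p ≠ 2) :
    veluT ((EQ W)⁄Kb) (AddSubgroup.zmultiples Q : Set ((EQ W)⁄Kb).Point) ∈ A := by
  rw [veluT_zmultiples (two_ne_zero) hp hp2 hQ hpQ]
  exact A.toSubring.sum_mem fun k hk =>
    tTerm_mem (ptX_nsmul_mem hp hpv hQ hpQ (not_dvd_of_mem_Icc_half hk))

include hp hpv hQ hpQ in
/-- **Vélu's `w` is integral.** -/
theorem veluW_mem (hp2 : p ≠ 2) :
    veluW ((EQ W)⁄Kb) (AddSubgroup.zmultiples Q : Set ((EQ W)⁄Kb).Point) ∈ A := by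
  rw [veluW_zmultiples (two_ne_zero) hp hp2 hQ hpQ]
  exact A.toSubring.sum_mem fun k hk =>
    wTerm_mem (ptX_nsmul_mem hp hpv hQ hpQ (not_dvd_of_mem_Icc_half hk))

end cyclic

end Fermat.Agent.S12.Level.KerInt
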