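/-
PROJECT M, block [V] (S12), leaf (V2-model), local half (helper27): the step inside `E⁰`.

`W : WeierstrassCurve ℤ` with multiplicative reduction at `A ∣ l` (`l ∣ Δ`, `l ∤ c₄`), `Q` a point
of odd prime order `p ≠ l` of `E = W_ℚ̄` IN the component of zero at `A`, `C = ⟨Q⟩`.  Then Vélu's
model `veluCurve E C` is `A`-integral with multiplicative reduction:

* `v t ≤ 1`, `v w ≤ 1` (so the new `a₄`, `a₆` are integral),
* the new `c₄` is a unit (helper17's `Inf.val_c4'_eq_one` with (S3a)),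
* `v Δ' = (v Δ) ^ p` ((V-DELTA) for the honest model, helper19's `veluCurve_disc`, and `ψ₂` units
  on the kernel, helper17's `Inf.torsion_dichotomy`).
-/
import Fermat.Agent.S12.Level.KerInt
import Fermat.Agent.S15.E2.Local.Inf
import Fermat.Agent.S15.E2.Unif.Main
import Fermat.Agent.S15.E1.VeluDisc
import Fermat.Agent.S13.CU.TorsionQbar

set_option autoImplicit false
set_option linter.unusedSectionVars false

noncomputable section

namespace Fermat.Agent.S12.Level.E0Step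

open WeierstrassCurve WeierstrassCurve.Affine
open Fermat.Agent.S13.Local.NodalInst
open Fermat.Agent.S15.Velu
open Fermat.Agent.S15.E2.Local.Quant
open Fermat.Agent.S58.Mult.Unipotent (EQ a₁_eq a₂_eq a₃_eq a₄_eq a₆_eq Δ_eq c₄_eq)
open Fermat.Agent.S12.Level.KerInt

local notation "Kb" => AlgebraicClosure ℚ

variable {W : WeierstrassCurve ℤ} {A : ValuationSubring Kb}

theorem Δ_ne_zero (hΔ0 : W.Δ ≠ 0) : ((EQ W)⁄Kb).Δ ≠ 0 := by
  rw [Δ_eq]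
  exact_mod_cast hΔ0

/-- The nonzero `N`-torsion as a `Finset`, with (S3a). -/
theorem exists_torsion_finset (hΔ0 : W.Δ ≠ 0) {N : ℕ} (hN : N.Prime) :
    ∃ T : Finset ((EQ W)⁄Kb).Point, (∀ P, P ∈ T ↔ N • P = 0 ∧ P ≠ 0) ∧
      120 * ∑ P ∈ T, tP ((EQ W)⁄Kb) P = ((N : Kb) ^ 4 - 1) * ((EQ W)⁄Kb).c₄ := by
  have hΔ := Δ_ne_zero (W := W) hΔ0
  have hfin : Finite (Submodule.torsionBy ℤ ((EQ W)⁄Kb).toAffine.Point N) :=
    (Fermat.Agent.S13.CU.TorsionQbar.torsionCard_qbar ((EQ W)⁄Kb) hΔ N hN.pos).finite hN.pos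
  have hfin' : {P : ((EQ W)⁄Kb).toAffine.Point | N • P = 0 ∧ P ≠ 0}.Finite := by
    have h1 : (Submodule.torsionBy ℤ ((EQ W)⁄Kb).toAffine.Point N :
        Set ((EQ W)⁄Kb).toAffine.Point).Finite := hfin
    refine h1.subset fun P hP => ?_
    exact (Fermat.Agent.S13.Iface.mem_torsionBy_iff_nsmul _ N P).mpr hP.1
  have hT : ∀ P, P ∈ hfin'.toFinset ↔ N • P = 0 ∧ P ≠ 0 := fun P => by
    rw [Set.Finite.mem_toFinset]
    rfl
  exact ⟨hfin'.toFinset, hT,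
    Fermat.Agent.S15.E2.Unif.Main.sum_tP_torsion ((EQ W)⁄Kb) hΔ
      Fermat.Agent.S13.CU.TorsionQbar.iota hN.ne_zero _ hT⟩

/-- **THE STEP INSIDE `E⁰`.**  `W` over `ℤ`, multiplicative at `A ∣ l`, `Q` of odd prime order
`p ≠ l` in the component of zero at `A`: Vélu's model for `⟨Q⟩` has `t`, `w` integral, `c₄'` a
unit and `v Δ' = (v Δ) ^ p`. -/
theorem model_of_inZero (hΔ0 : W.Δ ≠ 0) {l : ℕ} (hl : l.Prime) (hlΔ : (l : ℤ) ∣ W.Δ)
    (hlc₄ : ¬ (l : ℤ) ∣ W.c₄) (hA : A.LiesOverPrime l) {p : ℕ} (hp : p.Prime) (hp2 : p ≠ 2)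
    (hpl : p ≠ l) {Q : ((EQ W)⁄Kb).Point} (hQ : Q ≠ 0) (hpQ : p • Q = 0)
    (hin : W.InZeroComponentAt A Q) :
    A.valuation (veluT ((EQ W)⁄Kb) (AddSubgroup.zmultiples Q : Set ((EQ W)⁄Kb).Point)) ≤ 1 ∧
      A.valuation (veluW ((EQ W)⁄Kb) (AddSubgroup.zmultiples Q : Set ((EQ W)⁄Kb).Point)) ≤ 1 ∧
      A.valuation (veluCurve ((EQ W)⁄Kb)
        (AddSubgroup.zmultiples Q : Set ((EQ W)⁄Kb).Point)).c₄ = 1 ∧
      A.valuation (veluCurve ((EQ W)⁄Kb)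
        (AddSubgroup.zmultiples Q : Set ((EQ W)⁄Kb).Point)).Δ
        = A.valuation ((W.Δ : ℤ) : Kb) ^ p := by
  have hpv : A.valuation ((p : ℕ) : Kb) = 1 :=
    Fermat.Agent.S05.LocalVal.natCast_prime_valuation_eq_one hl hA hp hpl
  have h2 : (2 : Kb) ≠ 0 := two_ne_zero
  have hΔ := Δ_ne_zero (W := W) hΔ0
  obtain ⟨hunit, -⟩ := Fermat.Agent.S15.E2.Local.Inf.torsion_dichotomy W hl hlΔ hlc₄ hΔ0 A hA
    hp hp2 hpl Q hQ hpQ hin
  refine ⟨(A.valuation_le_one_iff _).mpr (veluT_mem hp hpv hQ hpQ hp2),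
    (A.valuation_le_one_iff _).mpr (veluW_mem hp hpv hQ hpQ hp2), ?_, ?_⟩
  · -- `c₄'` is a unit
    obtain ⟨T, hT, hS3a⟩ := exists_torsion_finset (W := W) hΔ0 hp
    exact Fermat.Agent.S15.E2.Local.Inf.val_c4'_eq_one W hl hlΔ hlc₄ hΔ0 A hA hp hp2 hpl Q hQ hpQ
      hin T hT hS3a _
      (Fermat.Agent.S15.E1.VeluDisc.veluCurve_c₄_zmultiples ((EQ W)⁄Kb) hp hQ hpQ h2)
  · -- the discriminant
    have hdisc := Fermat.Agent.S15.E1.VeluDisc.veluCurve_disc ((EQ W)⁄Kb) hΔ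
      Fermat.Agent.S13.CU.TorsionQbar.iota hp hQ hpQ hp2
    have hprod : A.valuation (∏ k ∈ Finset.Icc 1 (p - 1),
        (2 * ptY ((EQ W)⁄Kb) (k • Q) + ((EQ W)⁄Kb).a₁ * ptX ((EQ W)⁄Kb) (k • Q)
          + ((EQ W)⁄Kb).a₃) ^ 4) = 1 := by
      rw [map_prod]
      refine Finset.prod_eq_one fun k hk => ?_
      have h1 : A.valuation (psi2 ((EQ W)⁄Kb) (k • Q)) = 1 :=
        (hunit k (not_dvd_of_mem_Icc hk)).2
      rw [map_pow]
      have h1' : A.valuation (2 * ptY ((EQ W)⁄Kb) (k • Q)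
          + ((EQ W)⁄Kb).a₁ * ptX ((EQ W)⁄Kb) (k • Q) + ((EQ W)⁄Kb).a₃) = 1 := h1
      rw [h1', one_pow]
    have h3 := congrArg A.valuation hdisc
    rw [map_mul, hprod, mul_one, map_pow, Δ_eq] at h3
    exact h3

end Fermat.Agent.S12.Level.E0Step
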