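/-
PROJECT M, block [V] (S12), leaf (V2-model), local half (helper27): the step at a good prime.

`W : WeierstrassCurve ℤ` with good reduction at `A ∣ l` (`l ∤ Δ`), `Q` a point of odd prime order
`p ≠ l` of `E = W_ℚ̄`, `C = ⟨Q⟩`.  Then Vélu's model `veluCurve E C` is `A`-integral with good
reduction: `v t ≤ 1`, `v w ≤ 1`, `v Δ' = 1`.  (The kernel points are integral, so `ψ₂` is integral
on the kernel and `Δ' ∏ ψ₂⁴ = Δ^p` with `Δ` a unit and `Δ'` integral forces `Δ'` to be a unit.)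
-/
import Fermat.Agent.S12.Level.KerInt
import Fermat.Agent.S58.Red.Good
import Fermat.Agent.S15.E1.VeluDisc
import Fermat.Agent.S13.CU.TorsionQbar

set_option autoImplicit false
set_option linter.unusedSectionVars false

noncomputable section

namespace Fermat.Agent.S12.Level.GoodStep

open WeierstrassCurve WeierstrassCurve.Affine
open Fermat.Agent.S13.Local.NodalInst
open Fermat.Agent.S15.Velu
open Fermat.Agent.S58.Mult.Unipotent (EQ a₁_eq a₂_eq a₃_eq a₄_eq a₆_eq Δ_eq c₄_eq)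
open Fermat.Agent.S12.Level.KerInt

local notation "Kb" => AlgebraicClosure ℚ

variable {W : WeierstrassCurve ℤ} {A : ValuationSubring Kb}

/-- The discriminant of a curve with `A`-integral coefficients is `A`-integral. -/
theorem Δ_mem {V : WeierstrassCurve Kb} (h1 : V.a₁ ∈ A) (h2 : V.a₂ ∈ A) (h3 : V.a₃ ∈ A)
    (h4 : V.a₄ ∈ A) (h6 : V.a₆ ∈ A) : V.Δ ∈ A := by
  have e : V = (⟨⟨V.a₁, h1⟩, ⟨V.a₂, h2⟩, ⟨V.a₃, h3⟩, ⟨V.a₄, h4⟩, ⟨V.a₆, h6⟩⟩ :
      WeierstrassCurve A).map A.subtype := by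
    ext <;> rfl
  rw [e, WeierstrassCurve.map_Δ]
  exact Subtype.property _

/-- At a prime of good reduction, an integral `x`-coordinate forces an integral `y`-coordinate. -/
theorem ptY_mem {l : ℕ} (hl : l.Prime) (hgood : ¬ (l : ℤ) ∣ W.Δ) (hA : A.LiesOverPrime l)
    {P : ((EQ W)⁄Kb).Point} (hx : ptX ((EQ W)⁄Kb) P ∈ A) : ptY ((EQ W)⁄Kb) P ∈ A := by
  classical
  cases P with
  | zero => exact A.zero_mem
  | some x y h =>
    exact Fermat.Agent.S58.Red.CurveRed.y_mem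
      (Fermat.Agent.S58.Red.Good.isRed_of_good W hl hgood A hA) h.1 hx

/-- **THE STEP AT A GOOD PRIME.** -/
theorem model_of_good {l : ℕ} (hl : l.Prime) (hgood : ¬ (l : ℤ) ∣ W.Δ) (hA : A.LiesOverPrime l)
    {p : ℕ} (hp : p.Prime) (hp2 : p ≠ 2) (hpl : p ≠ l) {Q : ((EQ W)⁄Kb).Point} (hQ : Q ≠ 0)
    (hpQ : p • Q = 0) :
    A.valuation (veluT ((EQ W)⁄Kb) (AddSubgroup.zmultiples Q : Set ((EQ W)⁄Kb).Point)) ≤ 1 ∧
      A.valuation (veluW ((EQ W)⁄Kb) (AddSubgroup.zmultiples Q : Set ((EQ W)⁄Kb).Point)) ≤ 1 ∧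
      A.valuation (veluCurve ((EQ W)⁄Kb)
        (AddSubgroup.zmultiples Q : Set ((EQ W)⁄Kb).Point)).Δ = 1 := by
  have hpv : A.valuation ((p : ℕ) : Kb) = 1 :=
    Fermat.Agent.S05.LocalVal.natCast_prime_valuation_eq_one hl hA hp hpl
  have hΔ0 : W.Δ ≠ 0 := by
    intro h
    apply hgood
    rw [h]
    exact dvd_zero _
  have hΔ : ((EQ W)⁄Kb).Δ ≠ 0 := by
    rw [Δ_eq]
    exact_mod_cast hΔ0
  have hT := veluT_mem hp hpv hQ hpQ hp2
  have hW := veluW_mem hp hpv hQ hpQ hp2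
  refine ⟨(A.valuation_le_one_iff _).mpr hT, (A.valuation_le_one_iff _).mpr hW, ?_⟩
  -- the new discriminant is integral
  have hint : ∀ n : ℤ, ((n : ℤ) : Kb) ∈ A := fun n => intCast_mem A n
  have h5 : (5 : Kb) ∈ A := ofNat_mem 5
  have h7 : (7 : Kb) ∈ A := ofNat_mem 7
  have hΔ'mem : (veluCurve ((EQ W)⁄Kb)
      (AddSubgroup.zmultiples Q : Set ((EQ W)⁄Kb).Point)).Δ ∈ A := by
    refine Δ_mem ?_ ?_ ?_ ?_ ?_
    · show ((EQ W)⁄Kb).a₁ ∈ A
      rw [a₁_eq]; exact hint _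
    · show ((EQ W)⁄Kb).a₂ ∈ A
      rw [a₂_eq]; exact hint _
    · show ((EQ W)⁄Kb).a₃ ∈ A
      rw [a₃_eq]; exact hint _
    · show ((EQ W)⁄Kb).a₄ - 5 * veluT ((EQ W)⁄Kb) _ ∈ A
      rw [a₄_eq]
      exact sub_mem (hint _) (A.mul_mem _ _ h5 hT)
    · show ((EQ W)⁄Kb).a₆ - ((EQ W)⁄Kb).b₂ * veluT ((EQ W)⁄Kb) _
        - 7 * veluW ((EQ W)⁄Kb) _ ∈ A
      rw [a₆_eq, b₂_eq]
      exact sub_mem (sub_mem (hint _) (A.mul_mem _ _ (hint _) hT)) (A.mul_mem _ _ h7 hW)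
  have hΔ'le := (A.valuation_le_one_iff _).mpr hΔ'mem
  -- `ψ₂` is integral on the kernel
  have hprod : A.valuation (∏ k ∈ Finset.Icc 1 (p - 1),
      (2 * ptY ((EQ W)⁄Kb) (k • Q) + ((EQ W)⁄Kb).a₁ * ptX ((EQ W)⁄Kb) (k • Q)
        + ((EQ W)⁄Kb).a₃) ^ 4) ≤ 1 := by
    rw [A.valuation_le_one_iff]
    refine A.toSubring.prod_mem fun k hk => ?_
    have hx := ptX_nsmul_mem hp hpv hQ hpQ (not_dvd_of_mem_Icc hk)
    have hy := ptY_mem hl hgood hA hx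
    refine A.pow_mem ?_ 4
    rw [a₁_eq, a₃_eq]
    exact A.add_mem _ _ (A.add_mem _ _ (A.mul_mem _ _ (ofNat_mem 2) hy)
      (A.mul_mem _ _ (hint _) hx)) (hint _)
  have hdisc := Fermat.Agent.S15.E1.VeluDisc.veluCurve_disc ((EQ W)⁄Kb) hΔ
    Fermat.Agent.S13.CU.TorsionQbar.iota hp hQ hpQ hp2
  have hvΔ : A.valuation ((W.Δ : ℤ) : Kb) = 1 :=
    Fermat.Agent.S05.LocalVal.intCast_valuation_eq_one hl hA hgood
  have h3 := congrArg A.valuation hdisc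
  rw [map_mul, map_pow, Δ_eq, hvΔ, one_pow] at h3
  refine le_antisymm hΔ'le ?_
  calc (1 : A.ValueGroup) = _ := h3.symm
    _ ≤ A.valuation (veluCurve ((EQ W)⁄Kb)
        (AddSubgroup.zmultiples Q : Set ((EQ W)⁄Kb).Point)).Δ * 1 := mul_le_mul_right hprod _
    _ = _ := mul_one _

end Fermat.Agent.S12.Level.GoodStep
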