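import Mathlib
import Fermat.Agent.S12.Level.Cases
import Fermat.Agent.S12.Level.E0Step
import Fermat.Agent.S12.Level.GoodStep

/-!
# PROJECT M, block [V] (S12), leaf (V2-model): THE NEXT LEVEL

`W : WeierstrassCurve ℤ` with `Δ ≠ 0`, semistable at every prime `ℓ ≠ p` (`p` an odd prime),
`E = (EQ W)⁄ℚ̄`, `C ≤ E(ℚ̄)` a Galois-stable subgroup of order `p`.  Then there is a `ℤ`-model `W₁`
of `E / C` with the same bad primes `ℓ ≠ p`, again semistable there, with a Galois-equivariant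
surjection `φ : E(ℚ̄) → E₁(ℚ̄)` of kernel `C` and an equivariant `ψ` with `ψ ∘ φ = [p]`.
-/

set_option autoImplicit false
set_option linter.unusedSectionVars false
set_option linter.unusedVariables false

noncomputable section

namespace Fermat.Agent.S12.Level.NextLevel

open WeierstrassCurve WeierstrassCurve.Affine
open Fermat.Agent.S58.Mult.Unipotent (EQ)
open Fermat.Agent.S12.Level.Cases

local notation "Kb" => AlgebraicClosure ℚ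
local notation "GQ" => (AlgebraicClosure ℚ ≃ₐ[ℚ] AlgebraicClosure ℚ)

theorem e0Step (W : WeierstrassCurve ℤ) (hΔ : W.Δ ≠ 0) {p : ℕ} (hp : p.Prime) (hp2 : p ≠ 2) :
    E0Step W p := fun ℓ A Q hℓ hd hc hA hne hQ hpQ hin =>
  E0Step.model_of_inZero hΔ hℓ hd hc hA hp hp2 (Ne.symm hne) hQ hpQ hin

theorem goodStep (W : WeierstrassCurve ℤ) {p : ℕ} (hp : p.Prime) (hp2 : p ≠ 2) :
    GoodStep W p := fun ℓ A Q hℓ hd hA hne hQ hpQ =>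
  GoodStep.model_of_good hℓ hd hA hp hp2 (Ne.symm hne) hQ hpQ

/-- **(V2-model): THE NEXT LEVEL of the isogeny tower.** -/
theorem exists_next_level (W : WeierstrassCurve ℤ) (hΔ : W.Δ ≠ 0)
    {p : ℕ} (hp : p.Prime) (hp2 : p ≠ 2)
    (hsemi : ∀ ℓ : ℕ, ℓ.Prime → ℓ ≠ p → (ℓ : ℤ) ∣ W.Δ → ¬ (ℓ : ℤ) ∣ W.c₄)
    (C : AddSubgroup ((EQ W)⁄Kb).Point) (hcard : Nat.card C = p)
    (hstab : ∀ σ : GQ, ∀ Q ∈ C, σ • Q ∈ C) :
    ∃ (W₁ : WeierstrassCurve ℤ) (φ : ((EQ W)⁄Kb).Point →+ ((EQ W₁)⁄Kb).Point)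
      (ψ : ((EQ W₁)⁄Kb).Point →+ ((EQ W)⁄Kb).Point),
      W₁.Δ ≠ 0 ∧
      (∀ ℓ : ℕ, ℓ.Prime → ℓ ≠ p → ((ℓ : ℤ) ∣ W₁.Δ ↔ (ℓ : ℤ) ∣ W.Δ)) ∧
      (∀ ℓ : ℕ, ℓ.Prime → ℓ ≠ p → (ℓ : ℤ) ∣ W₁.Δ → ¬ (ℓ : ℤ) ∣ W₁.c₄) ∧
      Function.Surjective φ ∧ (∀ P, φ P = 0 ↔ P ∈ C) ∧
      (∀ (σ : GQ) (P : ((EQ W)⁄Kb).Point), φ (σ • P) = σ • φ P) ∧
      (∀ P : ((EQ W)⁄Kb).Point, ψ (φ P) = p • P) ∧
      (∀ (σ : GQ) (P : ((EQ W₁)⁄Kb).Point), ψ (σ • P) = σ • ψ P) :=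
  exists_next_level_of_steps W hΔ hp hp2 hsemi C hcard hstab (e0Step W hΔ hp hp2)
    (goodStep W hp hp2)

end Fermat.Agent.S12.Level.NextLevel
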