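import Mathlib
import Fermat.Agent.S12.Level.NextLevel
import Fermat.Agent.S13.Local.FreyTwoArith
import Fermat.Agent.S13.LineAlgebra
import Fermat.Agent.S13.CU.TorsionQbar
import Fermat.Agent.S13.Global

/-!
# PROJECT M, block [V] (S12), route alpha: the base of the tower

`P : FreyPackage`.  The prelude's integral model `P.freyCurveInt : WeierstrassCurve ℤ`
(`y² + x y = x³ + a₂ x² + a₄ x`, `a₂ = (b^p - 1 - a^p) / 4`, `a₄ = - a^p b^p / 16`) base-changes to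
`P.freyCurve`; its discriminant is `(a b c)^(2p) / 2⁸`, its `c₄` is `A² + A B + B²`, so it is
semistable at every prime and its bad primes are those of `a b c`.  The quotient of the Frey curve
by a cofixed line is the level `0` of the tower.
-/

set_option autoImplicit false
set_option linter.unusedSectionVars false
set_option linter.unusedVariables false

noncomputable section

namespace Fermat.Agent.S12.Level.FreyBase

open WeierstrassCurve WeierstrassCurve.Affine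
open Fermat.Agent.S58.Mult.Unipotent (EQ)
open Fermat.Agent.S13.Local.FreyTwoArith

local notation "Kb" => AlgebraicClosure ℚ
local notation "GQ" => (AlgebraicClosure ℚ ≃ₐ[ℚ] AlgebraicClosure ℚ)

variable (P : FreyPackage)

/-! ### integer arithmetic -/

theorem thirtytwo_dvd_b_pow : (32 : ℤ) ∣ P.b ^ P.p := by
  obtain ⟨k, hk⟩ := two_dvd_b P
  obtain ⟨m, hm⟩ := Nat.exists_eq_add_of_le P.hp5
  rw [hk, hm]
  exact ⟨2 ^ m * k ^ 5 * k ^ m, by ring⟩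

theorem sixteen_dvd_a4_num : (16 : ℤ) ∣ -(P.a ^ P.p) * P.b ^ P.p := by
  obtain ⟨k, hk⟩ := thirtytwo_dvd_b_pow P
  rw [hk]
  exact ⟨-(P.a ^ P.p) * (2 * k), by ring⟩

/-- `4 a₂ = b^p - 1 - a^p` -/
theorem four_mul_a₂ : 4 * P.freyCurveInt.a₂ = P.b ^ P.p - 1 - P.a ^ P.p :=
  Int.mul_ediv_cancel' (four_dvd_a2_num P)

/-- `16 a₄ = - a^p b^p` -/
theorem sixteen_mul_a₄ : 16 * P.freyCurveInt.a₄ = -(P.a ^ P.p) * P.b ^ P.p :=
  Int.mul_ediv_cancel' (sixteen_dvd_a4_num P)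

theorem a₁_int : P.freyCurveInt.a₁ = 1 := rfl
theorem a₃_int : P.freyCurveInt.a₃ = 0 := rfl
theorem a₆_int : P.freyCurveInt.a₆ = 0 := rfl

/-- **(a)** the prelude's integral model base-changes to the Frey curve -/
theorem EQ_freyCurveInt : EQ P.freyCurveInt = P.freyCurve := by
  have h2 := four_mul_a₂ P
  have h4 := sixteen_mul_a₄ P
  have h2' : (4 : ℚ) * ((P.freyCurveInt.a₂ : ℤ) : ℚ) = (P.b : ℚ) ^ P.p - 1 - (P.a : ℚ) ^ P.p := by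
    exact_mod_cast h2
  have h4' : (16 : ℚ) * ((P.freyCurveInt.a₄ : ℤ) : ℚ) = -((P.a : ℚ) ^ P.p) * (P.b : ℚ) ^ P.p := by
    exact_mod_cast h4
  ext
  · show (Int.castRingHom ℚ) (1 : ℤ) = (1 : ℚ)
    exact map_one _
  · show (Int.castRingHom ℚ) P.freyCurveInt.a₂ = P.freyCurve.a₂
    show ((P.freyCurveInt.a₂ : ℤ) : ℚ) = ((P.b : ℚ) ^ P.p - 1 - (P.a : ℚ) ^ P.p) / 4
    rw [← h2']; ring
  · show (Int.castRingHom ℚ) (0 : ℤ) = (0 : ℚ)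
    exact map_zero _
  · show (Int.castRingHom ℚ) P.freyCurveInt.a₄ = P.freyCurve.a₄
    show ((P.freyCurveInt.a₄ : ℤ) : ℚ) = -((P.a : ℚ) ^ P.p) * (P.b : ℚ) ^ P.p / 16
    rw [← h4']; ring
  · show (Int.castRingHom ℚ) (0 : ℤ) = (0 : ℚ)
    exact map_zero _

/-- `c₄ = A² + A B + B²` -/
theorem c₄_int : P.freyCurveInt.c₄
    = (P.a ^ P.p) ^ 2 + P.a ^ P.p * P.b ^ P.p + (P.b ^ P.p) ^ 2 := by
  have h2 := four_mul_a₂ P
  have h4 := sixteen_mul_a₄ P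
  simp only [WeierstrassCurve.c₄, WeierstrassCurve.b₂, WeierstrassCurve.b₄, a₁_int, a₃_int]
  linear_combination (1 + 4 * P.freyCurveInt.a₂ + P.b ^ P.p - P.a ^ P.p) * h2 - 3 * h4

/-- `2⁸ Δ = (A B C)²` -/
theorem Δ_int : 256 * P.freyCurveInt.Δ = (P.a ^ P.p * P.b ^ P.p * P.c ^ P.p) ^ 2 := by
  have h2 := four_mul_a₂ P
  have h4 := sixteen_mul_a₄ P
  have hF := P.hFLT
  simp only [WeierstrassCurve.Δ, WeierstrassCurve.b₂, WeierstrassCurve.b₄, WeierstrassCurve.b₆,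
    WeierstrassCurve.b₈, a₁_int, a₃_int, a₆_int]
  rw [← hF]
  linear_combination
    ((16 * P.freyCurveInt.a₄ + -(P.a ^ P.p) * P.b ^ P.p) * (1 + 4 * P.freyCurveInt.a₂) ^ 2
      - 4 * ((16 * P.freyCurveInt.a₄) ^ 2 + (16 * P.freyCurveInt.a₄) * (-(P.a ^ P.p) * P.b ^ P.p)
        + (-(P.a ^ P.p) * P.b ^ P.p) ^ 2)) * h4
    + ((-(P.a ^ P.p) * P.b ^ P.p) ^ 2 * ((1 + 4 * P.freyCurveInt.a₂) + (P.b ^ P.p - P.a ^ P.p))) * h2

theorem abc_pow_ne_zero : P.a ^ P.p * P.b ^ P.p * P.c ^ P.p ≠ 0 :=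
  mul_ne_zero (mul_ne_zero (pow_ne_zero _ P.ha0) (pow_ne_zero _ P.hb0)) (pow_ne_zero _ P.hc0)

/-- **(b1)** the discriminant of the integral model is non-zero -/
theorem Δ_ne_zero : P.freyCurveInt.Δ ≠ 0 := by
  intro h
  have h1 := Δ_int P
  rw [h, mul_zero] at h1
  exact pow_ne_zero 2 (abc_pow_ne_zero P) h1.symm

/-- **(b2)** `2 ∣ Δ` -/
theorem two_dvd_Δ : (2 : ℤ) ∣ P.freyCurveInt.Δ := by
  obtain ⟨k, hk⟩ := thirtytwo_dvd_b_pow P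
  have h1 := Δ_int P
  rw [hk] at h1
  have h2 : P.freyCurveInt.Δ = 4 * (P.a ^ P.p * k * P.c ^ P.p) ^ 2 := by
    have : (256 : ℤ) * P.freyCurveInt.Δ = 256 * (4 * (P.a ^ P.p * k * P.c ^ P.p) ^ 2) := by
      rw [h1]; ring
    exact mul_left_cancel₀ (by norm_num) this
  rw [h2]
  exact ⟨2 * (P.a ^ P.p * k * P.c ^ P.p) ^ 2, by ring⟩

theorem not_dvd_of_gcd {x y : ℤ} (h : gcd x y = 1) {ℓ : ℕ} (hℓ : ℓ.Prime) (hx : (ℓ : ℤ) ∣ x)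
    (hy : (ℓ : ℤ) ∣ y) : False := by
  have h1 : (ℓ : ℤ) ∣ gcd x y := dvd_gcd hx hy
  rw [h] at h1
  have h2 : ℓ ∣ 1 := by exact_mod_cast h1
  exact hℓ.one_lt.ne' (Nat.dvd_one.mp h2)

theorem prime_int {ℓ : ℕ} (hℓ : ℓ.Prime) : Prime (ℓ : ℤ) := Nat.prime_iff_prime_int.mp hℓ

/-- **(b3)** the bad primes of the integral model are the primes of `a b c` -/
theorem dvd_Δ_iff {ℓ : ℕ} (hℓ : ℓ.Prime) :
    (ℓ : ℤ) ∣ P.freyCurveInt.Δ ↔ (ℓ : ℤ) ∣ P.a * P.b * P.c := by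
  have hpr := prime_int hℓ
  have h1 := Δ_int P
  constructor
  · intro h
    have h2 : (ℓ : ℤ) ∣ (P.a ^ P.p * P.b ^ P.p * P.c ^ P.p) ^ 2 := by
      rw [← h1]; exact Dvd.dvd.mul_left h _
    have h3 := hpr.dvd_of_dvd_pow h2
    rcases hpr.dvd_or_dvd h3 with h4 | h4
    · rcases hpr.dvd_or_dvd h4 with h5 | h5
      · exact Dvd.dvd.mul_right (Dvd.dvd.mul_right (hpr.dvd_of_dvd_pow h5) _) _
      · exact Dvd.dvd.mul_right (Dvd.dvd.mul_left (hpr.dvd_of_dvd_pow h5) _) _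
    · exact Dvd.dvd.mul_left (hpr.dvd_of_dvd_pow h4) _
  · intro h
    by_cases h2 : ℓ = 2
    · subst h2
      exact_mod_cast two_dvd_Δ P
    · have h3 : (ℓ : ℤ) ∣ P.a ^ P.p * P.b ^ P.p * P.c ^ P.p := by
        have : P.a ^ P.p * P.b ^ P.p * P.c ^ P.p = (P.a * P.b * P.c) ^ P.p := by ring
        rw [this]
        exact Dvd.dvd.pow h P.hp0
      have h4 : (ℓ : ℤ) ∣ 256 * P.freyCurveInt.Δ := by
        rw [h1]; exact Dvd.dvd.pow h3 two_ne_zero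
      rcases hpr.dvd_or_dvd h4 with h5 | h5
      · exfalso
        have h6 : (ℓ : ℤ) ∣ (2 : ℤ) ^ 8 := by norm_num; exact h5
        have h7 : (ℓ : ℤ) ∣ 2 := hpr.dvd_of_dvd_pow h6
        have h8 : ℓ ∣ 2 := by exact_mod_cast h7
        exact h2 ((Nat.prime_dvd_prime_iff_eq hℓ Nat.prime_two).mp h8)
      · exact h5

/-- **(b4)** the integral model is semistable at every prime -/
theorem semistable {ℓ : ℕ} (hℓ : ℓ.Prime) (h : (ℓ : ℤ) ∣ P.freyCurveInt.Δ) :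
    ¬ (ℓ : ℤ) ∣ P.freyCurveInt.c₄ := by
  have hpr := prime_int hℓ
  intro hc
  rw [c₄_int] at hc
  have habc := (dvd_Δ_iff P hℓ).mp h
  have hA : (ℓ : ℤ) ∣ P.a → (ℓ : ℤ) ∣ P.a ^ P.p := fun h => Dvd.dvd.pow h P.hp0
  have hB : (ℓ : ℤ) ∣ P.b → (ℓ : ℤ) ∣ P.b ^ P.p := fun h => Dvd.dvd.pow h P.hp0
  rcases hpr.dvd_or_dvd habc with h4 | h4
  · rcases hpr.dvd_or_dvd h4 with h5 | h5
    · -- `ℓ ∣ a`
      have h6 : (ℓ : ℤ) ∣ (P.b ^ P.p) ^ 2 := by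
        have : (P.b ^ P.p) ^ 2 = ((P.a ^ P.p) ^ 2 + P.a ^ P.p * P.b ^ P.p + (P.b ^ P.p) ^ 2)
            - P.a ^ P.p * (P.a ^ P.p + P.b ^ P.p) := by ring
        rw [this]
        exact dvd_sub hc (Dvd.dvd.mul_right (hA h5) _)
      exact not_dvd_of_gcd P.hgcdab hℓ h5 (hpr.dvd_of_dvd_pow (hpr.dvd_of_dvd_pow h6))
    · -- `ℓ ∣ b`
      have h6 : (ℓ : ℤ) ∣ (P.a ^ P.p) ^ 2 := by
        have : (P.a ^ P.p) ^ 2 = ((P.a ^ P.p) ^ 2 + P.a ^ P.p * P.b ^ P.p + (P.b ^ P.p) ^ 2)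
            - P.b ^ P.p * (P.a ^ P.p + P.b ^ P.p) := by ring
        rw [this]
        exact dvd_sub hc (Dvd.dvd.mul_right (hB h5) _)
      exact not_dvd_of_gcd P.hgcdab hℓ (hpr.dvd_of_dvd_pow (hpr.dvd_of_dvd_pow h6)) h5
  · -- `ℓ ∣ c`
    have hC : (ℓ : ℤ) ∣ P.a ^ P.p + P.b ^ P.p := by
      rw [P.hFLT]; exact Dvd.dvd.pow h4 P.hp0
    have h6 : (ℓ : ℤ) ∣ P.a ^ P.p * P.b ^ P.p := by
      have : P.a ^ P.p * P.b ^ P.p = (P.a ^ P.p + P.b ^ P.p) ^ 2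
          - ((P.a ^ P.p) ^ 2 + P.a ^ P.p * P.b ^ P.p + (P.b ^ P.p) ^ 2) := by ring
      rw [this]
      exact dvd_sub (Dvd.dvd.pow hC two_ne_zero) hc
    rcases hpr.dvd_or_dvd h6 with h7 | h7
    · exact not_dvd_of_gcd P.hgcdac hℓ (hpr.dvd_of_dvd_pow h7) h4
    · exact not_dvd_of_gcd P.hgcdbc hℓ (hpr.dvd_of_dvd_pow h7) h4

/-! ### the subgroup of points of a submodule of the torsion module -/

section line

open Fermat.Agent.S13.Global WeierstrassCurve.Affine.Point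

variable {W' : Affine ℚ} {n : ℕ}

/-- the points of a submodule of the `n`-torsion module, as a subgroup of `W'(ℚ̄)` -/
def lineSub (N : Submodule (ZMod n) (Tors W' n)) : AddSubgroup (W'⁄Kb).Point where
  carrier := {x | ∃ y : Tors W' n, y ∈ N ∧ (y : (W'⁄Kb).Point) = x}
  zero_mem' := ⟨0, N.zero_mem, rfl⟩
  add_mem' := by
    rintro _ _ ⟨y, hy, rfl⟩ ⟨z, hz, rfl⟩
    exact ⟨y + z, N.add_mem hy hz, rfl⟩
  neg_mem' := by
    rintro _ ⟨y, hy, rfl⟩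
    exact ⟨-y, N.neg_mem hy, rfl⟩

theorem mem_lineSub (N : Submodule (ZMod n) (Tors W' n)) (x : (W'⁄Kb).Point) :
    x ∈ lineSub N ↔ ∃ y : Tors W' n, y ∈ N ∧ (y : (W'⁄Kb).Point) = x := Iff.rfl

theorem card_lineSub (N : Submodule (ZMod n) (Tors W' n)) :
    Nat.card (lineSub N) = Nat.card N := by
  refine Nat.card_congr ⟨fun x => ⟨⟨x.1, ?_⟩, ?_⟩, fun y => ⟨y.1.1, y.1, y.2, rfl⟩, ?_, ?_⟩
  · obtain ⟨y, -, hy⟩ := x.2
    rw [← hy]; exact y.2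
  · obtain ⟨y, hyN, hy⟩ := x.2
    have : (⟨x.1, by rw [← hy]; exact y.2⟩ : Tors W' n) = y := Subtype.ext hy.symm
    rw [this]; exact hyN
  · intro x; rfl
  · intro y; rfl

theorem lineSub_stable (N : Submodule (ZMod n) (Tors W' n)) (hN : IsGaloisStable ℚ N)
    (σ : GQ) (x : (W'⁄Kb).Point) (hx : x ∈ lineSub N) : σ • x ∈ lineSub N := by
  obtain ⟨y, hy, rfl⟩ := hx
  exact ⟨σ • y, hN σ y hy, rfl⟩

end line

/-! ### the next level for a rational curve with a given integral model -/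

open Fermat.Agent.S12.Level.NextLevel in
/-- `exists_next_level` for a curve over `ℚ` equal to the base change of an integral model -/
theorem exists_next_level_of_eq (W : WeierstrassCurve ℤ) (W' : Affine ℚ) (h : EQ W = W')
    (hΔ : W.Δ ≠ 0) {p : ℕ} (hp : p.Prime) (hp2 : p ≠ 2)
    (hsemi : ∀ ℓ : ℕ, ℓ.Prime → ℓ ≠ p → (ℓ : ℤ) ∣ W.Δ → ¬ (ℓ : ℤ) ∣ W.c₄)
    (C : AddSubgroup (W'⁄Kb).Point) (hcard : Nat.card C = p)
    (hstab : ∀ σ : GQ, ∀ Q ∈ C, σ • Q ∈ C) :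
    ∃ (W₁ : WeierstrassCurve ℤ) (φ : (W'⁄Kb).Point →+ ((EQ W₁)⁄Kb).Point)
      (ψ : ((EQ W₁)⁄Kb).Point →+ (W'⁄Kb).Point),
      W₁.Δ ≠ 0 ∧
      (∀ ℓ : ℕ, ℓ.Prime → ℓ ≠ p → ((ℓ : ℤ) ∣ W₁.Δ ↔ (ℓ : ℤ) ∣ W.Δ)) ∧
      (∀ ℓ : ℕ, ℓ.Prime → ℓ ≠ p → (ℓ : ℤ) ∣ W₁.Δ → ¬ (ℓ : ℤ) ∣ W₁.c₄) ∧
      Function.Surjective φ ∧ (∀ x, φ x = 0 ↔ x ∈ C) ∧
      (∀ (σ : GQ) (x : (W'⁄Kb).Point), φ (σ • x) = σ • φ x) ∧
      (∀ x : (W'⁄Kb).Point, ψ (φ x) = p • x) ∧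
      (∀ (σ : GQ) (x : ((EQ W₁)⁄Kb).Point), ψ (σ • x) = σ • ψ x) := by
  subst h
  exact exists_next_level W hΔ hp hp2 hsemi C hcard hstab

/-- **(c) THE LEVEL ZERO**: the quotient of the Frey curve by a Galois-stable line of its
`p`-torsion module, as a semistable-away-from-`p` integral model with bad primes `≠ p` those of
`a b c`. -/
theorem exists_level_zero
    (N : Submodule (ZMod P.p) (Fermat.Agent.S13.Global.Tors P.freyCurve P.p))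
    (hN : WeierstrassCurve.Affine.Point.IsGaloisStable ℚ N) (hbot : N ≠ ⊥) (htop : N ≠ ⊤) :
    ∃ (W₀ : WeierstrassCurve ℤ) (φ : (P.freyCurve⁄Kb).Point →+ ((EQ W₀)⁄Kb).Point)
      (ψ : ((EQ W₀)⁄Kb).Point →+ (P.freyCurve⁄Kb).Point),
      W₀.Δ ≠ 0 ∧
      (∀ ℓ : ℕ, ℓ.Prime → ℓ ≠ P.p → ((ℓ : ℤ) ∣ W₀.Δ ↔ (ℓ : ℤ) ∣ P.a * P.b * P.c)) ∧
      (∀ ℓ : ℕ, ℓ.Prime → ℓ ≠ P.p → (ℓ : ℤ) ∣ W₀.Δ → ¬ (ℓ : ℤ) ∣ W₀.c₄) ∧
      Function.Surjective φ ∧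
      (∀ x, φ x = 0 ↔ ∃ y : Fermat.Agent.S13.Global.Tors P.freyCurve P.p,
        y ∈ N ∧ (y : (P.freyCurve⁄Kb).Point) = x) ∧
      (∀ (σ : GQ) (x : (P.freyCurve⁄Kb).Point), φ (σ • x) = σ • φ x) ∧
      (∀ x : (P.freyCurve⁄Kb).Point, ψ (φ x) = P.p • x) ∧
      (∀ (σ : GQ) (x : ((EQ W₀)⁄Kb).Point), ψ (σ • x) = σ • ψ x) := by
  haveI : Fact P.p.Prime := ⟨P.pp⟩
  have hp2 : P.p ≠ 2 := by have := P.hp5; omega
  have hcard : Nat.card (lineSub N) = P.p := by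
    rw [card_lineSub]
    exact Fermat.Agent.S13.LineAlgebra.card_eq_of_ne_bot_of_ne_top
      (Fermat.Agent.S13.CU.TorsionQbar.card_tors_frey P) N hbot htop
  obtain ⟨W₀, φ, ψ, h1, h2, h3, h4, h5, h6, h7, h8⟩ :=
    exists_next_level_of_eq P.freyCurveInt P.freyCurve (EQ_freyCurveInt P) (Δ_ne_zero P) P.pp hp2
      (fun ℓ hℓ _ hd => semistable P hℓ hd) (lineSub N) hcard
      (fun σ x hx => lineSub_stable N hN σ x hx)
  refine ⟨W₀, φ, ψ, h1, fun ℓ hℓ hne => ?_, h3, h4, fun x => ?_, h6, h7, h8⟩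
  · rw [h2 ℓ hℓ hne, dvd_Δ_iff P hℓ]
  · rw [h5 x, mem_lineSub]

end Fermat.Agent.S12.Level.FreyBase
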