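import Mathlib
import Fermat.Agent.S12.Level.Away
import Fermat.Agent.S12.Level.FreyBase
import Fermat.Agent.S12.Level.NextLevel
import Fermat.Agent.S12.V5.Level
import Fermat.Agent.S14
import Fermat.Prelude.Def_FLTPrelim_CofixedLine

/-!
# PROJECT M, block [V] (S12): the plug of route alpha into helper12's assembly

The three inputs `ZeroHyp`, `NextHyp`, `Away` of `V5/Level.false_of_cofixed` are
`FreyBase.exists_level_zero`, `NextLevel.exists_next_level` and `Away.{openStab, locFree_away,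
hout_away}` (the last two from the statement S15).  Hence, for `p ≥ 17`, S15 implies that the Frey
curve has no Galois-stable cofixed line (statement S12).
-/

set_option autoImplicit false
set_option linter.unusedSectionVars false
set_option linter.unusedVariables false

noncomputable section

namespace Fermat.Agent.S12.Level.Plug

open WeierstrassCurve WeierstrassCurve.Affine WeierstrassCurve.Affine.Point
open Fermat.Agent.S13.Global ExtCitation
open Fermat.Agent.S58.Mult.Unipotent (EQ)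

local notation "Kb" => AlgebraicClosure ℚ
local notation "GQ" => (AlgebraicClosure ℚ ≃ₐ[ℚ] AlgebraicClosure ℚ)

variable {P : FreyPackage} [hpF : Fact P.p.Prime]
  {N : Submodule (ZMod P.p) (Tors P.freyCurve P.p)}

/-- the analysis away from `p` at a level, from S15 -/
theorem away_of_S15 (hS15 : Away.S15Stmt) (hp17 : 17 ≤ P.p)
    (L : Fermat.Agent.S12.V5.Level.Lev P N) :
    Fermat.Agent.S12.V5.Level.Away P.p L.W L.Q := by
  have hp := hpF.out
  have h2p : (2 : ℕ) ≠ P.p := by omega
  have h2Δ : (2 : ℤ) ∣ L.W.Δ := by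
    have := (L.bad 2 Nat.prime_two h2p).mpr (by exact_mod_cast P.two_dvd_abc)
    exact_mod_cast this
  have hnot : ∀ ℓ : ℕ, ℓ.Prime → ℓ ≠ P.p → (ℓ : ℤ) ∣ L.W.Δ → ∀ A : ValuationSubring Kb,
      A.LiesOverPrime ℓ → ¬ L.W.InZeroComponentAt A L.Q :=
    fun ℓ hℓ hℓp hd A hA =>
      Away.not_inZero_of_S15 hp L.W L.hΔ L.Q L.fixQ L.ordQ hS15 hp17 L.semi h2Δ hℓ hℓp hd A hA
  refine ⟨fun x => Away.openStab (EQ L.W) x, ?_, ?_⟩
  · intro ℓ hℓ hℓp A hA σ hσ x hx
    exact Away.locFree_away hp L.W L.hΔ L.semi L.Q L.ordQ hnot hℓ hℓp A hA hσ x hx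
  · intro ℓ hℓ hℓp A hA
    obtain ⟨Z, hqZ, hZ⟩ :=
      Away.hout_away hp L.W L.hΔ L.semi L.q L.q_ne_zero hnot ℓ hℓ hℓp A hA
    refine ⟨Z, fun z hz hzQ => hqZ ?_, hZ⟩
    have e : z = L.q := Subtype.ext hzQ
    rw [← e]; exact hz

/-- **S15 ⟹ S12** (route alpha through helper12's assembly). -/
theorem no_cofixed_of_S15 (hS15 : Away.S15Stmt) (P : FreyPackage) (hp17 : 17 ≤ P.p) :
    ¬ HasGaloisStableCofixedLine (K := AlgebraicClosure ℚ) ℚ P.freyCurve P.p := by
  haveI : Fact P.p.Prime := ⟨P.pp⟩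
  rintro ⟨N, hN, hbot, htop, hcof⟩
  have hp2 : P.p ≠ 2 := by omega
  exact Fermat.Agent.S12.V5.Level.false_of_cofixed hN hbot htop hcof
    (Fermat.Agent.S14.result (by omega))
    (FreyBase.exists_level_zero P N hN hbot htop)
    (fun W hΔ hsemi C hcard hstab =>
      NextLevel.exists_next_level W hΔ P.pp hp2 hsemi C hcard hstab)
    (fun L => away_of_S15 hS15 hp17 L)

end Fermat.Agent.S12.Level.Plug
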